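import Fermat.Agent.Ribet.H944.WallSpec

/-!
# Row 38, WALL-p: pointwise form of the filtration package and the `p ≥ 5` glue for S44
(wall architect helper944)

`AtPFiltrationStatement` of `WallSpec.lean` asks for the package at every odd `p`.  The Frey
form (S44) only needs `p ≥ 5`, where all nodes of `X₀(pM')` have thickness prime to `p`.
* `AtPFiltrationFor p M'`     : the package for a fixed pair `(p, M')`;
* `AtPFiltration5Statement`   : the package for all primes `p ≥ 5`;
* `wallFrey_of_filtration5`   : Places + package (`p ≥ 5`) + ELOC-ord-Frey + NMT ⇒ `WallFreyStatement`;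
* `S44_of_filtration5`        : the frozen S44 from the package and the landed/owned inputs.
-/

set_option autoImplicit false
set_option linter.style.haveILetI false

open WeierstrassCurve WeierstrassCurve.Affine WeierstrassCurve.Affine.Point
open CuspForm ModularFormClass UpperHalfPlane ModularCurve

namespace Fermat.Agent.Ribet.H944.Wall

open Fermat.Agent.Ribet.Spec

/-- The at-`p` filtration package for a fixed pair `(p, M')` (same body as
`AtPFiltrationStatement`). -/
def AtPFiltrationFor (p M' : ℕ) [NeZero M'] [NeZero (p * M')] : Prop :=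
  ∃ (S₀ : Finset ℕ) (α β : JZero (p * M') →+ JZero M'), IsDegPair p M' S₀ α β ∧
    ∀ A : ValuationSubring (AlgebraicClosure ℚ), A.LiesOverPrime p →
    ∃ 𝓕 𝒮 : AddSubgroup (JZero (p * M')),
      (∀ x : JZero (p * M'), p • x = 0 → ∀ σ ∈ A.inertiaSubgroupIn ℚ, σ • x - x ∈ 𝒮) ∧
      (∀ x ∈ 𝒮, p • x = 0 → α x = 0 → β x = 0 →
        ∀ σ ∈ A.inertiaSubgroupIn ℚ, ∀ c : ℕ, CycloAt p σ c → σ • x = c • x) ∧
      (∀ (S : Finset ℕ) (a : ℕ → ℤ), ∀ x ∈ 𝓕, x ∉ 𝒮 → p • x = 0 → α x = 0 → β x = 0 →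
        EigenAt (p * M') S a x → Lowered M' p S a) ∧
      (∀ (S : Finset ℕ) (a : ℕ → ℤ), NonEisAway p a → ∀ x t : JZero (p * M'),
        p • x = 0 → α x = 0 → β x = 0 → EigenAt (p * M') S a x →
        p • t = 0 → α t = 0 → β t = 0 → EigenAt (p * M') S a t →
        (∀ σ ∈ A.inertiaSubgroupIn ℚ, ∀ c : ℕ, CycloAt p σ c → σ • t = c • t) →
        (∀ σ ∈ A.inertiaSubgroupIn ℚ, ∃ n : ℕ, σ • x = x + n • t) →
        (∀ σ : GQ, PeuFixes A p σ → σ • x = x) → x ∈ 𝓕)

theorem atPFiltrationStatement_iff :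
    AtPFiltrationStatement ↔
      ∀ (p M' : ℕ) [NeZero M'] [NeZero (p * M')], p.Prime → p ≠ 2 → ¬ p ∣ M' →
        AtPFiltrationFor p M' :=
  Iff.rfl

/-- The package for all primes `p ≥ 5` (enough for S44). -/
def AtPFiltration5Statement : Prop :=
  ∀ (p M' : ℕ) [NeZero M'] [NeZero (p * M')], p.Prime → 5 ≤ p → ¬ p ∣ M' →
    AtPFiltrationFor p M'

theorem atPFiltration5_of (h : AtPFiltrationStatement) : AtPFiltration5Statement :=
  fun p M' _ _ hp h5 hpM' => h p M' hp (by omega) hpM'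

/-- Pointwise form of the total glue: the wall for one embedded curve from the package at
`(p, M')`, the local structure of `E[p]` in the ordinary case and NMT. -/
theorem lowered_of_filtrationFor {E : WeierstrassCurve ℚ} {p M' : ℕ} [NeZero M']
    [NeZero (p * M')] (hF : AtPFiltrationFor p M') {S : Finset ℕ} {a : ℕ → ℤ}
    {A : ValuationSubring (AlgebraicClosure ℚ)} (hA : A.LiesOverPrime p)
    (hEL : OrdinaryInertiaAt E p A → ELOCOrdAt E p A)
    (hNMT : ¬ ∀ σ ∈ A.inertiaSubgroupIn ℚ, ∀ c : ℕ, CycloAt p σ c →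
      ∀ x : ETorsion E p, σ • x = c • x)
    (hNE : NonEisAway p a)
    (hemb : EEmbedsIn E p (p * M') S a) : Lowered M' p S a := by
  obtain ⟨S₀, α, β, hdeg, hA'⟩ := hF
  obtain ⟨𝓕, 𝒮, h1, h2, h3, h4⟩ := hA' A hA
  obtain ⟨ι, hinj, hgal, hT⟩ := hemb
  by_cases h : ∃ x, α (ι x) ≠ 0 ∨ β (ι x) ≠ 0
  · exact ⟨S ∪ S₀, Finset.subset_union_left, Or.inl (occursIn_of_not_new hdeg ι hT h)⟩
  have hnew : ∀ x, α (ι x) = 0 ∧ β (ι x) = 0 := by
    intro x
    by_contra hx
    apply h
    refine ⟨x, ?_⟩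
    by_cases h1 : α (ι x) = 0
    · exact Or.inr (fun h2 => hx ⟨h1, h2⟩)
    · exact Or.inl h1
  -- (WP) on the image, from (S1) and (S2)
  have hH : OrdinaryInertiaAt E p A := by
    intro σ hσ c hc x
    apply hinj
    rw [map_add, map_nsmul, map_nsmul, hgal, hgal]
    have hpx := nsmul_emb_eq_zero ι x
    have hy : σ • ι x - ι x ∈ 𝒮 := h1 (ι x) hpx σ hσ
    have hpy : p • (σ • ι x - ι x) = 0 := by
      rw [nsmul_sub, smul_comm p σ (ι x), hpx, sub_zero]
      exact smul_zero (A := JZero (p * M')) σ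
    have hαy : α (σ • ι x - ι x) = 0 := by
      rw [map_sub, hdeg.galois_left, (hnew x).1, sub_zero]
      exact smul_zero (A := JZero M') σ
    have hβy : β (σ • ι x - ι x) = 0 := by
      rw [map_sub, hdeg.galois_right, (hnew x).2, sub_zero]
      exact smul_zero (A := JZero M') σ
    have hh := h2 _ hy hpy hαy hβy σ hσ c hc
    rw [smul_sub, nsmul_sub] at hh
    have h' : σ • σ • ι x = c • σ • ι x - c • ι x + σ • ι x := by
      rw [← hh]; abel
    rw [h', add_nsmul, one_nsmul]; abel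
  exact lowered_of_filtration hdeg h2 h3 h4 (hEL hH) hNMT hNE ⟨ι, hinj, hgal, hT⟩

/-- **Total glue, S44 form, `p ≥ 5`.** -/
theorem wallFrey_of_filtration5 (hPl : PlacesStatement) (hF : AtPFiltration5Statement)
    (hEL : ELOCOrdFreyStatement) (hNMT : NotMultiplicativeTypeStatement) :
    WallFreyStatement := by
  intro P M' _ _ hpM' hpabc hirr S a hNE hemb
  obtain ⟨A, hA, -⟩ := hPl P.p P.pp
  exact lowered_of_filtrationFor (hF P.p M' P.pp P.hp5 hpM') hA (fun _ => hEL P hpabc A hA)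
    (hNMT P A hA) hNE hemb

/-- **Total glue, S40 form**, pointwise (same as `wallGood_of_filtration`, via the pointwise
lemma). -/
theorem wallGood_of_filtrationFor (hPl : PlacesStatement)
    (hF : ∀ (p M' : ℕ) [NeZero M'] [NeZero (p * M')], p.Prime → p ≠ 2 → ¬ p ∣ M' →
      AtPFiltrationFor p M')
    (hEL : ELOCOrdGoodStatement) (hNMT : NotMultTypeWStatement) (hNE : NonEisWStatement) :
    WallGoodStatement := by
  intro W p M' _ _ hΔ hp hp2 hpM' hgood hirr S hemb
  obtain ⟨A, hA, -⟩ := hPl p hp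
  exact lowered_of_filtrationFor (hF p M' hp hp2 hpM') hA
    (fun hH => hEL W p hΔ hp hp2 hgood A hA hH) (hNMT W p hΔ hp hp2 hirr A hA)
    (hNE W p hΔ hp hp2 hirr) hemb

/-- **The frozen S44 from the package (`p ≥ 5`) and the row inputs.** -/
theorem S44_of_filtration5 (hE : EmbedStatement) (hPl : PlacesStatement)
    (hF : AtPFiltration5Statement) (hEL : ELOCOrdFreyStatement)
    (hNMT : NotMultiplicativeTypeStatement) (hNE : NonEisensteinStatement)
    (hR3 : EigenformOfOccursAwayStatement) (hR3' : AlmostAllToWitnessStatement) :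
    S44Statement :=
  S44_of_wall hE (wallFrey_of_filtration5 hPl hF hEL hNMT) hNE hR3 hR3'

end Fermat.Agent.Ribet.H944.Wall
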