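import Fermat.Agent.Ribet.H801.Deg
import Fermat.Agent.Ribet.H944.WallSpec5

/-!
# Row 38, WALL-p: the four targets of the sub-architects and the assembly (W-ASM, helper944)

With the concrete degeneracy pair `(α, β) = (H801.alphaL p M', H801.betaL p M')` (W-DEG, on main)
the package `Wall.AtPFiltrationFor p M'` is the conjunction, for every place `A` over `p`, of four
statements about two subgroups `𝓕` ("finite part": slopes `0`) and `𝒮` ("split part": slopes
`0` and trivial reductions on both components) of `J₀(pM')(ℚ̄)`: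

* `S1For p M' A 𝒮`   — SLOPE+DLOG (helper884): `σ x - x ∈ 𝒮` for `x ∈ J[p]`, `σ ∈ I`;
* `S2For p M' A 𝒮`   — I4 + I5 (helper103): `I` acts through `χ` on the new part of `𝒮`;
* `S3For p M' 𝓕 𝒮`   — I3 (helper764): a new eigenclass in `𝓕 ∖ 𝒮` is lowered;
* `S4For p M' A 𝓕`   — I6 (helper704): new + non-Eisenstein + ordinary shape + peu ⇒ in `𝓕`.

`atPFiltrationFor_of` assembles them.  The owner of SLOPE+DLOG DEFINES `𝓕` and `𝒮` (as
`AddSubgroup (JZero (p * M'))`, depending on `A`); the other three prove their statement for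
these two subgroups.
-/

set_option autoImplicit false
set_option linter.style.haveILetI false

open WeierstrassCurve WeierstrassCurve.Affine WeierstrassCurve.Affine.Point
open CuspForm ModularFormClass UpperHalfPlane ModularCurve

namespace Fermat.Agent.Ribet.H944.Wall

open Fermat.Agent.Ribet.Spec Fermat.Agent.Ribet.H801

section Targets

variable (p M' : ℕ) [NeZero M'] [NeZero p] [NeZero (p * M')]

/-- `x` is a new `p`-torsion class: `p x = 0`, `α_* x = 0`, `β_* x = 0`. -/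
def IsNewTors (x : JZero (p * M')) : Prop :=
  p • x = 0 ∧ alphaL p M' x = 0 ∧ betaL p M' x = 0

/-- **(S1)**  inertia acts trivially on `J[p] / 𝒮`. -/
def S1For (A : ValuationSubring (AlgebraicClosure ℚ)) (𝒮 : AddSubgroup (JZero (p * M'))) :
    Prop :=
  ∀ x : JZero (p * M'), p • x = 0 → ∀ σ ∈ A.inertiaSubgroupIn ℚ, σ • x - x ∈ 𝒮

/-- **(S2)**  inertia acts through `χ` on the new part of `𝒮`. -/
def S2For (A : ValuationSubring (AlgebraicClosure ℚ)) (𝒮 : AddSubgroup (JZero (p * M'))) :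
    Prop :=
  ∀ x ∈ 𝒮, IsNewTors p M' x →
    ∀ σ ∈ A.inertiaSubgroupIn ℚ, ∀ c : ℕ, CycloAt p σ c → σ • x = c • x

/-- **(S3)**  a new Hecke-eigenclass in `𝓕 ∖ 𝒮` has its eigensystem at level `M'`. -/
def S3For (𝓕 𝒮 : AddSubgroup (JZero (p * M'))) : Prop :=
  ∀ (S : Finset ℕ) (a : ℕ → ℤ), ∀ x ∈ 𝓕, x ∉ 𝒮 → IsNewTors p M' x →
    EigenAt (p * M') S a x → Lowered M' p S a

/-- **(S4) = I6**  new + non-Eisenstein + ordinary shape + peu ramifiée ⇒ in `𝓕`. -/
def S4For (A : ValuationSubring (AlgebraicClosure ℚ)) (𝓕 : AddSubgroup (JZero (p * M'))) :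
    Prop :=
  ∀ (S : Finset ℕ) (a : ℕ → ℤ), NonEisAway p a → ∀ x t : JZero (p * M'),
    IsNewTors p M' x → EigenAt (p * M') S a x →
    IsNewTors p M' t → EigenAt (p * M') S a t →
    (∀ σ ∈ A.inertiaSubgroupIn ℚ, ∀ c : ℕ, CycloAt p σ c → σ • t = c • t) →
    (∀ σ ∈ A.inertiaSubgroupIn ℚ, ∃ n : ℕ, σ • x = x + n • t) →
    (∀ σ : GQ, PeuFixes A p σ → σ • x = x) → x ∈ 𝓕

/-- **W-ASM**: the package at `(p, M')` from the four targets. -/
theorem atPFiltrationFor_of (hp : p.Prime)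
    (h : ∀ A : ValuationSubring (AlgebraicClosure ℚ), A.LiesOverPrime p →
      ∃ 𝓕 𝒮 : AddSubgroup (JZero (p * M')),
        S1For p M' A 𝒮 ∧ S2For p M' A 𝒮 ∧ S3For p M' 𝓕 𝒮 ∧ S4For p M' A 𝓕) :
    AtPFiltrationFor p M' := by
  refine ⟨{p}, alphaL p M', betaL p M', isDegPair_alphaL_betaL p M' hp, fun A hA => ?_⟩
  obtain ⟨𝓕, 𝒮, h1, h2, h3, h4⟩ := h A hA
  refine ⟨𝓕, 𝒮, h1, ?_, ?_, ?_⟩
  · intro x hx hpx hαx hβx
    exact h2 x hx ⟨hpx, hαx, hβx⟩
  · intro S a x hx hxS hpx hαx hβx heig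
    exact h3 S a x hx hxS ⟨hpx, hαx, hβx⟩ heig
  · intro S a hNE x t hpx hαx hβx hex hpt hαt hβt het hχ hsh hpeu
    exact h4 S a hNE x t ⟨hpx, hαx, hβx⟩ hex ⟨hpt, hαt, hβt⟩ het hχ hsh hpeu

end Targets

/-- The four targets for all primes `p ≥ 5` (enough for S44). -/
def WallTargets5Statement : Prop :=
  ∀ (p M' : ℕ) [NeZero M'] [NeZero p] [NeZero (p * M')], p.Prime → 5 ≤ p → ¬ p ∣ M' →
    ∀ A : ValuationSubring (AlgebraicClosure ℚ), A.LiesOverPrime p →
      ∃ 𝓕 𝒮 : AddSubgroup (JZero (p * M')),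
        S1For p M' A 𝒮 ∧ S2For p M' A 𝒮 ∧ S3For p M' 𝓕 𝒮 ∧ S4For p M' A 𝓕

/-- The four targets for all odd primes (needed for S40). -/
def WallTargetsStatement : Prop :=
  ∀ (p M' : ℕ) [NeZero M'] [NeZero p] [NeZero (p * M')], p.Prime → p ≠ 2 → ¬ p ∣ M' →
    ∀ A : ValuationSubring (AlgebraicClosure ℚ), A.LiesOverPrime p →
      ∃ 𝓕 𝒮 : AddSubgroup (JZero (p * M')),
        S1For p M' A 𝒮 ∧ S2For p M' A 𝒮 ∧ S3For p M' 𝓕 𝒮 ∧ S4For p M' A 𝓕

theorem atPFiltration5_of_targets (h : WallTargets5Statement) : AtPFiltration5Statement := by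
  intro p M' _ _ hp h5 hpM'
  haveI : NeZero p := ⟨hp.ne_zero⟩
  exact atPFiltrationFor_of p M' hp (h p M' hp h5 hpM')

theorem atPFiltration_of_targets (h : WallTargetsStatement) : AtPFiltrationStatement := by
  intro p M' _ _ hp hp2 hpM'
  haveI : NeZero p := ⟨hp.ne_zero⟩
  exact atPFiltrationFor_of p M' hp (h p M' hp hp2 hpM')

/-- **S44 from the four targets (`p ≥ 5`), ELOC-ord for the Frey curve and the row inputs.** -/
theorem S44_of_targets5 (hE : EmbedStatement) (hPl : PlacesStatement)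
    (hT : WallTargets5Statement) (hEL : ELOCOrdFreyStatement)
    (hNMT : NotMultiplicativeTypeStatement) (hNE : NonEisensteinStatement)
    (hR3 : EigenformOfOccursAwayStatement) (hR3' : AlmostAllToWitnessStatement) :
    S44Statement :=
  S44_of_filtration5 hE hPl (atPFiltration5_of_targets hT) hEL hNMT hNE hR3 hR3'

/-- **S40 from the four targets (all odd `p`), ELOC-ord (good reduction) and the row inputs.** -/
theorem S40_of_targets (hE : EmbedWStatement) (hPl : PlacesStatement)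
    (hT : WallTargetsStatement) (hEL : ELOCOrdGoodStatement)
    (hNMT : NotMultTypeWStatement) (hNE : NonEisWStatement)
    (hR3 : EigenformOfOccursAwayStatement) (hR3' : AlmostAllToWitnessWStatement) :
    S40Statement :=
  S40_of_wall hE (wallGood_of_filtration hPl (atPFiltration_of_targets hT) hEL hNMT hNE)
    hR3 hR3'

end Fermat.Agent.Ribet.H944.Wall
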