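import Fermat.Agent.Ribet.H884.SlopeSpec
import Fermat.Agent.S37.H697.Kronecker
import Fermat.Agent.S29.H395.KummerCorr

/-!
# Row 38, WALL-p, leaf I2 = DLOG (`H884.DlogOutStatement`): frozen leaves + PROVED assembly
  (wall architect helper944)

`x ∈ 𝓕 ∖ 𝒮` a new Hecke eigenclass of `J₀(pM')[p]`, `N = pM'`.  By CLOSED `x` has a Kummer
generator `f` with reductions `r₁` (on `C∞`) and `r₂` (on `C₀`, i.e. a reduction of `w_N f`), both
`PDivSeries`, not both in `k((t^p))`.  Put `(F, r) = (f, r₁)` or `(w_N f, r₂)` with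
`r ∉ k((t^p))`.  Then `h = r`, `g = θh / h` is the output, and the eigen-relations come from

  `T_ℓ x = a_ℓ x`  ⟹  `Nm_α(β f) = c · f ^ a_ℓ · G ^ p`                       (KUMEIG)
                   ⟹  `Nm_α(β (w_N f)) = c · (w_N f) ^ a_ℓ · (w_N G) ^ p`     (FRICKE-HECKE)
  reduction:       `knorm ℓ r = c̄ · r ^ a_ℓ · Ḡ ^ p`    (HECKE-RED, REDEX, REDUNIQ; `knorm` = the
                   formal Kronecker norm `S37.H697.knorm`, `Nm_α(β Y) = knorm ℓ Y` on series)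
  `dlog`:          `g_{nℓ} + ℓ g_{n/ℓ} = a_ℓ g_n`         (DLOG-KNORM, pure series, `ℓ ≠ p`).

## Leaves (each ONE Prop; prove `theorem foo : FooStatement` in `Ribet/H<seat>/…`)
| leaf | Prop | content |
|---|---|---|
| CLOSED       | `H884.FinClosedStatement`   | `finSet` is a subgroup |
| RES          | `H884.ResFieldStatement`    | `k` algebraically closed of characteristic `p` |
| REDEX/UNIQ   | `H884.RedExistsStatement`, `H884.RedUniqueStatement` | reductions exist, unique up to `kˣ` |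
| KUMEIG       | `KumEigStatement`           | Kummer form of `T_ℓ x = a x` |
| FRICKE-HECKE | `FrickeHeckeStatement`      | `Nm_α ∘ β` commutes with `w_N` (`ℓ ∤ N`) |
| HECKE-RED    | `HeckeRedStatement`         | reduction of `Nm_α(β f)` is `knorm ℓ` of the reduction |
| DLOG-KNORM   | `DlogKnormStatement`        | `dlog (knorm ℓ h) = T_ℓ (dlog h)` on series, char `p ≠ ℓ` |
| DLOG-EX      | `DlogExStatement`           | `θh / h ∈ k⟦t⟧` |

## Proved here
* algebra of reductions: `isRedInf_one/const/mul/inv/pow/zpow`;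
* `dlog_ne_zero` : `g ≠ 0` unless `h ∈ k((t^p))`;
* **`dlogOut_of`** : all leaves ⟹ `H884.DlogOutStatement`.
-/

set_option autoImplicit false
set_option linter.style.haveILetI false
set_option synthInstance.maxHeartbeats 400000
set_option maxHeartbeats 1000000

noncomputable section

namespace Fermat.Agent.Ribet.H944.I2

open AlgebraicCurve ModularCurve HahnSeries
open Fermat.Agent.S24 Fermat.Agent.A2.H708 Fermat.Agent.A2.H528
open Fermat.Agent.Ribet.Spec Fermat.Agent.Ribet.H944.Wall Fermat.Agent.Ribet.H884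
open Fermat.Agent.S37.H697

/-! ## Vocabulary -/

/-- The function-level Hecke operator `Nm_α ∘ β : F_N → F_N`. -/
abbrev hNorm (N ℓ : ℕ) [NeZero N] [NeZero ℓ] (f : FF N) : FF N :=
  Fermat.Agent.S29.H395.heckeNorm N ℓ f

/-- Kummer form of the eigen-relation `T_ℓ x = a x` on a Kummer generator `f`:
`Nm_α(β f) = c · f ^ a · G ^ p`. -/
def KummerEigen (N p ℓ : ℕ) [NeZero N] [NeZero ℓ] (a : ℤ) (f : FF N) : Prop :=
  ∃ (c : Kbar) (G : FF N), c ≠ 0 ∧ G ≠ 0 ∧
    hNorm N ℓ f = algebraMap Kbar (FF N) c * f ^ a * G ^ p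

/-! ## Leaves -/

/-- **KUMEIG.**  `T_ℓ x = a_ℓ x` on Kummer generators (any level `N`, any `p ≠ 0`). -/
def KumEigStatement : Prop :=
  ∀ (N p : ℕ) [NeZero N], p ≠ 0 → ∀ (S : Finset ℕ) (a : ℕ → ℤ) (x : JZero N) (f : FF N),
    IsKummerGen N p f x → EigenAt N S a x →
    ∀ (ℓ : ℕ) [NeZero ℓ], ℓ.Prime → ℓ ∉ S → ¬ ℓ ∣ N → KummerEigen N p ℓ (a ℓ) f

/-- **FRICKE-HECKE.**  `Nm_α ∘ β` commutes with the Fricke involution `w_N` (`ℓ ∤ N`). -/
def FrickeHeckeStatement : Prop :=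
  ∀ (N ℓ : ℕ) [NeZero N] [NeZero ℓ], ℓ.Prime → ¬ ℓ ∣ N → ∀ f : FF N,
    hNorm N ℓ (wF N f) = wF N (hNorm N ℓ f)

/-- **HECKE-RED.**  If `r` is a reduction of `f` on `C∞`, then the formal Kronecker norm
`knorm ℓ r` is a reduction of `Nm_α(β f)` (`ℓ ∤ N`). -/
def HeckeRedStatement : Prop :=
  ∀ (N ℓ : ℕ) [NeZero N] [NeZero ℓ], ℓ.Prime → ¬ ℓ ∣ N →
    ∀ (A : ValuationSubring Kbar) (f : FF N) (r : LaurentSeries (kA A)),
      IsRedInf N A f r → IsRedInf N A (hNorm N ℓ f) (knorm ℓ r)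

/-- **DLOG-KNORM** (pure series).  In characteristic `p ≠ ℓ`: if `g = θh / h` and
`knorm ℓ h = c · h ^ a · G ^ p`, then `g_{nℓ} + ℓ g_{n/ℓ} = a g_n`. -/
def DlogKnormStatement : Prop :=
  ∀ (k : Type) [Field k] [IsAlgClosed k] (p : ℕ) [CharP k p], p.Prime →
    ∀ (ℓ : ℕ) [NeZero ℓ], ℓ.Prime → ℓ ≠ p →
    ∀ (h G : LaurentSeries k) (g : PowerSeries k) (a : ℤ) (c : k),
      h ≠ 0 → G ≠ 0 → c ≠ 0 → H764.I3.IsDlog h g →
      knorm ℓ h = HahnSeries.C c * h ^ a * G ^ p →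
      ∀ n : ℕ, PowerSeries.coeff (n * ℓ) g +
          (if ℓ ∣ n then (ℓ : k) * PowerSeries.coeff (n / ℓ) g else 0) =
        (a : k) * PowerSeries.coeff n g

/-- **DLOG-EX** (pure series).  `θh / h` is a power series. -/
def DlogExStatement : Prop :=
  ∀ (k : Type) [Field k] (h : LaurentSeries k), h ≠ 0 → ∃ g : PowerSeries k, H764.I3.IsDlog h g

/-! ## Algebra of reductions -/

section RedAlg

variable (N : ℕ) [NeZero N] (A : ValuationSubring Kbar)

theorem isRedInf_ne_zero {f : FF N} {r : LaurentSeries (kA A)} (h : IsRedInf N A f r) :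
    f ≠ 0 ∧ r ≠ 0 := by
  obtain ⟨c, U₁, U₂, hc, h1, h2, hf, hr⟩ := h
  refine ⟨?_, ?_⟩
  · rintro rfl
    have h0 : cst c * incl A U₁ = 0 := by
      rw [← hf]
      simp
    rcases mul_eq_zero.mp h0 with h0 | h0
    · exact cst_ne_zero hc h0
    · exact incl_ne_zero A (ne_zero_of_red_ne_zero A h1) h0
  · rintro rfl
    rw [zero_mul] at hr
    exact h1 hr.symm

theorem isRedInf_const {c : Kbar} (hc : c ≠ 0) :
    IsRedInf N A (algebraMap Kbar (FF N) c) 1 := by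
  refine ⟨c, 1, 1, hc, ?_, ?_, ?_, ?_⟩
  · rw [map_one]; exact one_ne_zero
  · rw [map_one]; exact one_ne_zero
  · rw [map_one, mul_one, mul_one]
    rfl
  · rw [map_one, mul_one]

theorem isRedInf_one : IsRedInf N A (1 : FF N) 1 := by
  have h := isRedInf_const N A (one_ne_zero : (1 : Kbar) ≠ 0)
  rwa [map_one] at h

theorem isRedInf_mul {f g : FF N} {r s : LaurentSeries (kA A)} (hf : IsRedInf N A f r)
    (hg : IsRedInf N A g s) : IsRedInf N A (f * g) (r * s) := by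
  obtain ⟨c, U₁, U₂, hc, h1, h2, hfU, hr⟩ := hf
  obtain ⟨d, V₁, V₂, hd, k1, k2, hgV, hs⟩ := hg
  refine ⟨c * d, U₁ * V₁, U₂ * V₂, mul_ne_zero hc hd, ?_, ?_, ?_, ?_⟩
  · rw [map_mul]; exact mul_ne_zero h1 k1
  · rw [map_mul]; exact mul_ne_zero h2 k2
  · have e : ((f * g : FF N) : LaurentSeries Kbar) =
        (f : LaurentSeries Kbar) * (g : LaurentSeries Kbar) := rfl
    rw [e, map_mul, map_mul, cst_mul]
    calc (f : LaurentSeries Kbar) * (g : LaurentSeries Kbar) * (incl A U₂ * incl A V₂)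
        = ((f : LaurentSeries Kbar) * incl A U₂) * ((g : LaurentSeries Kbar) * incl A V₂) := by
          ring
      _ = (cst c * incl A U₁) * (cst d * incl A V₁) := by rw [hfU, hgV]
      _ = cst c * cst d * (incl A U₁ * incl A V₁) := by ring
  · rw [map_mul, map_mul, ← hr, ← hs]
    ring

theorem isRedInf_inv {f : FF N} {r : LaurentSeries (kA A)} (hf : IsRedInf N A f r) :
    IsRedInf N A f⁻¹ r⁻¹ := by
  obtain ⟨hf0, hr0⟩ := isRedInf_ne_zero N A hf
  obtain ⟨c, U₁, U₂, hc, h1, h2, hfU, hr⟩ := hf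
  refine ⟨c⁻¹, U₂, U₁, inv_ne_zero hc, h2, h1, ?_, ?_⟩
  · have hf0' : (f : LaurentSeries Kbar) ≠ 0 := fun h => hf0 (Subtype.ext h)
    have e : ((f⁻¹ : FF N) : LaurentSeries Kbar) = (f : LaurentSeries Kbar)⁻¹ := rfl
    rw [e]
    have hcc : cst c ≠ 0 := cst_ne_zero hc
    have e2 : cst (c⁻¹ : Kbar) = (cst c)⁻¹ := by
      apply eq_inv_of_mul_eq_one_left
      exact cst_inv_mul_cst hc
    rw [e2]
    field_simp
    rw [hfU, mul_comm]
  · rw [← hr]
    field_simp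

theorem isRedInf_pow {f : FF N} {r : LaurentSeries (kA A)} (hf : IsRedInf N A f r) (n : ℕ) :
    IsRedInf N A (f ^ n) (r ^ n) := by
  induction n with
  | zero => simpa using isRedInf_one N A
  | succ n ih =>
    rw [pow_succ, pow_succ]
    exact isRedInf_mul N A ih hf

theorem isRedInf_zpow {f : FF N} {r : LaurentSeries (kA A)} (hf : IsRedInf N A f r) (a : ℤ) :
    IsRedInf N A (f ^ a) (r ^ a) := by
  rcases a with n | n
  · simpa using isRedInf_pow N A hf n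
  · rw [zpow_negSucc, zpow_negSucc]
    exact isRedInf_inv N A (isRedInf_pow N A hf (n + 1))

end RedAlg

/-! ## Assembly -/

/-- `g = θh / h` is nonzero unless `h ∈ k((t^p))`. -/
theorem dlog_ne_zero {k : Type} [Field k] (p : ℕ) [CharP k p] {h : LaurentSeries k}
    {g : PowerSeries k} (hg : H764.I3.IsDlog h g) (hs : ¬ SplitSeries p h) : g ≠ 0 := by
  rintro rfl
  apply hs
  intro n hn
  have h1 := hg n
  rw [map_zero, zero_mul, HahnSeries.coeff_zero] at h1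
  have h2 : (n : k) ≠ 0 := by
    intro h0
    exact hn ((CharP.intCast_eq_zero_iff k p n).mp h0)
  rcases mul_eq_zero.mp h1.symm with h3 | h3
  · exact absurd h3 h2
  · exact h3

/-- The Kummer eigen-relation is transported by the Fricke involution. -/
theorem KummerEigen.fricke (hFH : FrickeHeckeStatement) {N p ℓ : ℕ} [NeZero N] [NeZero ℓ]
    (hℓ : ℓ.Prime) (hℓN : ¬ ℓ ∣ N) {a : ℤ} {f : FF N} (h : KummerEigen N p ℓ a f) :
    KummerEigen N p ℓ a (wF N f) := by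
  obtain ⟨c, G, hc, hG, hN⟩ := h
  refine ⟨c, wF N G, hc, ?_, ?_⟩
  · intro h0
    apply hG
    have := congrArg (wF N) h0
    rwa [wF_wF, map_zero] at this
  · rw [hFH N ℓ hℓ hℓN f, hN, map_mul, map_mul, map_pow, map_zpow₀, AlgEquiv.commutes]

/-- **I2 from its leaves.** -/
theorem dlogOut_of (hC : FinClosedStatement) (hR : ResFieldStatement)
    (hEx : RedExistsStatement) (hU : RedUniqueStatement)
    (hK : KumEigStatement) (hFH : FrickeHeckeStatement) (hHR : HeckeRedStatement)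
    (hDK : DlogKnormStatement) (hDE : DlogExStatement) : DlogOutStatement := by
  intro p M' _ _ _ hp hp2 hpM A hA S a x hx hxS hnew heig
  obtain ⟨hac, hch⟩ := hR p hp A hA
  haveI := hac
  haveI := hch
  obtain ⟨f, hfK, r₁, r₂, hr1, hr2, hP1, hP2⟩ := hC p M' hp hpM A hA x hx
  have hns : ¬ (SplitSeries p r₁ ∧ SplitSeries p r₂) := by
    rintro ⟨h1, h2⟩
    exact hxS (AddSubgroup.subset_closure ⟨f, hfK, r₁, r₂, hr1, hr2, hP1, hP2, h1, h2⟩)
  have hKf : ∀ (ℓ : ℕ) [NeZero ℓ], ℓ.Prime → ℓ ∉ S → ¬ ℓ ∣ p * M' →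
      KummerEigen (p * M') p ℓ (a ℓ) f :=
    fun ℓ _ hℓ hℓS hℓN => hK (p * M') p hp.ne_zero S a x f hfK heig ℓ hℓ hℓS hℓN
  -- the main step, for a pair `(F, r)`
  have key : ∀ (F : FF (p * M')) (r : LaurentSeries (kA A)), IsRedInf (p * M') A F r →
      PDivSeries p M' r → ¬ SplitSeries p r →
      (∀ (ℓ : ℕ) [NeZero ℓ], ℓ.Prime → ℓ ∉ S → ¬ ℓ ∣ p * M' →
        KummerEigen (p * M') p ℓ (a ℓ) F) →
      ∃ (S' : Finset ℕ) (h : modularFunctionFieldFullC (kA A) M') (g : PowerSeries (kA A)),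
        S ⊆ S' ∧ h ≠ 0 ∧
        (∀ Q : Place (kA A) (modularFunctionFieldFullC (kA A) M'), (p : ℤ) ∣ Q.ord h) ∧
        H764.I3.IsDlog (h : LaurentSeries (kA A)) g ∧ g ≠ 0 ∧
        H764.I3.IsEigenSeries M' S' a g := by
    intro F r hFr hPr hsr hKF
    obtain ⟨h, hh, h0, hdiv⟩ := hPr
    have h0' : (h : LaurentSeries (kA A)) ≠ 0 := fun e => h0 (Subtype.ext e)
    obtain ⟨g, hg⟩ := hDE (kA A) (h : LaurentSeries (kA A)) h0'
    refine ⟨insert p S, h, g, Finset.subset_insert p S, h0, hdiv, hg,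
      dlog_ne_zero p hg (by rw [hh]; exact hsr), ?_⟩
    intro ℓ hℓ hℓM hℓS' n
    have hℓp : ℓ ≠ p := fun e => hℓS' (e ▸ Finset.mem_insert_self _ _)
    have hℓS : ℓ ∉ S := fun e => hℓS' (Finset.mem_insert_of_mem e)
    have hℓN : ¬ ℓ ∣ p * M' := by
      intro hd
      rcases (Nat.Prime.dvd_mul hℓ).mp hd with h1 | h1
      · exact hℓp ((Nat.prime_dvd_prime_iff_eq hℓ hp).mp h1)
      · exact hℓM h1
    haveI : NeZero ℓ := ⟨hℓ.ne_zero⟩
    obtain ⟨c, G, hc, hG, hN⟩ := hKF ℓ hℓ hℓS hℓN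
    have h1 : IsRedInf (p * M') A (hNorm (p * M') ℓ F) (knorm ℓ r) :=
      hHR (p * M') ℓ hℓ hℓN A F r hFr
    obtain ⟨rG, hrG⟩ := (hEx p (p * M') hp A hA G hG).1
    have h2 : IsRedInf (p * M') A (hNorm (p * M') ℓ F) (1 * r ^ (a ℓ) * rG ^ p) := by
      rw [hN]
      exact isRedInf_mul _ A (isRedInf_mul _ A (isRedInf_const _ A hc)
        (isRedInf_zpow _ A hFr (a ℓ))) (isRedInf_pow _ A hrG p)
    obtain ⟨-, cb, hcb, hEq⟩ := hU p (p * M') hp A hA _ _ _ h2 h1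
    have hrG0 : rG ≠ 0 := (isRedInf_ne_zero _ A hrG).2
    refine hDK (kA A) p hp ℓ hℓ hℓp (h : LaurentSeries (kA A)) rG g (a ℓ) cb h0' hrG0 hcb hg ?_ n
    rw [hh, hEq, one_mul, mul_assoc]
  by_cases hs1 : SplitSeries p r₁
  · have hs2 : ¬ SplitSeries p r₂ := fun h2 => hns ⟨hs1, h2⟩
    exact key (wF (p * M') f) r₂ hr2 hP2 hs2
      (fun ℓ _ hℓ hℓS hℓN => (hKf ℓ hℓ hℓS hℓN).fricke hFH hℓ hℓN)
  · exact key f r₁ hr1 hP1 hs1 hKf

end Fermat.Agent.Ribet.H944.I2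

end
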