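import Fermat.Agent.Ribet.H944.I2Spec

/-!
# Row 38, WALL-p, leaf CLOSED: `finSet` and `splitSet` are subgroups (helper944)

`finClosed : H884.FinClosedStatement`, `splitClosed : H884.SplitClosedStatement`
(`Ribet/H884/SlopeSpec.lean`), unconditional.  Kummer generators, reductions (`I2.isRedInf_mul`,
`I2.isRedInf_inv`), `PDivSeries` and `SplitSeries` (`= range of t ↦ t^p`) are multiplicative.
-/

set_option autoImplicit false
set_option linter.style.haveILetI false
set_option linter.unusedSectionVars false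
set_option synthInstance.maxHeartbeats 400000
set_option maxHeartbeats 1000000

noncomputable section

namespace Fermat.Agent.Ribet.H944.I2

open AlgebraicCurve ModularCurve HahnSeries
open Fermat.Agent.S24 Fermat.Agent.A2.H708 Fermat.Agent.A2.H528
open Fermat.Agent.Ribet.Spec Fermat.Agent.Ribet.H944.Wall Fermat.Agent.Ribet.H884
open Fermat.Agent.S37.H697

/-! ## Kummer generators -/

section Kummer

variable (N : ℕ) [NeZero N] (p : ℕ)

theorem isKummerGen_one : IsKummerGen N p (1 : FF N) 0 := by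
  refine ⟨one_ne_zero, 0, rfl, fun v => ?_⟩
  rw [Place.ord_one]
  simp

theorem isKummerGen_mul {f g : FF N} {x y : JZero N} (hf : IsKummerGen N p f x)
    (hg : IsKummerGen N p g y) : IsKummerGen N p (f * g) (x + y) := by
  obtain ⟨hf0, D, rfl, hD⟩ := hf
  obtain ⟨hg0, E, rfl, hE⟩ := hg
  refine ⟨mul_ne_zero hf0 hg0, D + E, rfl, fun v => ?_⟩
  rw [Place.ord_mul v hf0 hg0, hD, hE]
  simp [mul_add]

theorem isKummerGen_inv {f : FF N} {x : JZero N} (hf : IsKummerGen N p f x) :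
    IsKummerGen N p f⁻¹ (-x) := by
  obtain ⟨hf0, D, rfl, hD⟩ := hf
  refine ⟨inv_ne_zero hf0, -D, rfl, fun v => ?_⟩
  rw [Place.ord_inv, hD]
  simp

end Kummer

/-! ## `PDivSeries` and `SplitSeries` -/

section Series

variable (p M' : ℕ) {k : Type} [Field k]

theorem pDivSeries_one : PDivSeries p M' (1 : LaurentSeries k) := by
  refine ⟨1, rfl, one_ne_zero, fun Q => ?_⟩
  rw [Place.ord_one]
  exact dvd_zero _

theorem pDivSeries_mul {r s : LaurentSeries k} (hr : PDivSeries p M' r)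
    (hs : PDivSeries p M' s) : PDivSeries p M' (r * s) := by
  obtain ⟨h, rfl, h0, hd⟩ := hr
  obtain ⟨h', rfl, h0', hd'⟩ := hs
  refine ⟨h * h', rfl, mul_ne_zero h0 h0', fun Q => ?_⟩
  rw [Place.ord_mul Q h0 h0']
  exact dvd_add (hd Q) (hd' Q)

theorem pDivSeries_inv {r : LaurentSeries k} (hr : PDivSeries p M' r) :
    PDivSeries p M' r⁻¹ := by
  obtain ⟨h, rfl, h0, hd⟩ := hr
  refine ⟨h⁻¹, rfl, inv_ne_zero h0, fun Q => ?_⟩
  rw [Place.ord_inv]
  exact (dvd_neg).mpr (hd Q)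

variable [NeZero p]

theorem splitSeries_iff (r : LaurentSeries k) :
    SplitSeries p r ↔ ∃ r' : LaurentSeries k, r = qExpand k p r' := by
  constructor
  · intro h
    refine ⟨Fermat.Agent.S37.H340.sect p 0 r, ?_⟩
    ext n
    rw [Fermat.Agent.S37.H340.qExpand_coeff]
    split_ifs with hn
    · rw [Fermat.Agent.S37.H340.sect_coeff, add_zero, Int.mul_ediv_cancel' hn]
    · exact h n hn
  · rintro ⟨r', rfl⟩ n hn
    rw [Fermat.Agent.S37.H340.qExpand_coeff, if_neg hn]

theorem splitSeries_one : SplitSeries p (1 : LaurentSeries k) :=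
  (splitSeries_iff p 1).mpr ⟨1, (map_one _).symm⟩

theorem splitSeries_mul {r s : LaurentSeries k} (hr : SplitSeries p r) (hs : SplitSeries p s) :
    SplitSeries p (r * s) := by
  obtain ⟨r', rfl⟩ := (splitSeries_iff p r).mp hr
  obtain ⟨s', rfl⟩ := (splitSeries_iff p s).mp hs
  exact (splitSeries_iff p _).mpr ⟨r' * s', (map_mul _ _ _).symm⟩

theorem splitSeries_inv {r : LaurentSeries k} (hr : SplitSeries p r) : SplitSeries p r⁻¹ := by
  obtain ⟨r', rfl⟩ := (splitSeries_iff p r).mp hr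
  exact (splitSeries_iff p _).mpr ⟨r'⁻¹, (map_inv₀ _ _).symm⟩

end Series

/-! ## The two sets are subgroups -/

section Closed

variable (p M' : ℕ) [NeZero p] [NeZero (p * M')] (A : ValuationSubring Kbar)

theorem finGen_one : FinGen p M' A (1 : FF (p * M')) :=
  ⟨1, 1, isRedInf_one _ A, by
    show IsRedInf (p * M') A (wF (p * M') 1) 1
    rw [map_one]; exact isRedInf_one _ A, pDivSeries_one p M', pDivSeries_one p M'⟩

theorem finGen_mul {f g : FF (p * M')} (hf : FinGen p M' A f) (hg : FinGen p M' A g) :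
    FinGen p M' A (f * g) := by
  obtain ⟨r₁, r₂, h1, h2, h3, h4⟩ := hf
  obtain ⟨s₁, s₂, k1, k2, k3, k4⟩ := hg
  refine ⟨r₁ * s₁, r₂ * s₂, isRedInf_mul _ A h1 k1, ?_, pDivSeries_mul p M' h3 k3,
    pDivSeries_mul p M' h4 k4⟩
  show IsRedInf (p * M') A (wF (p * M') (f * g)) (r₂ * s₂)
  rw [map_mul]
  exact isRedInf_mul _ A h2 k2

theorem finGen_inv {f : FF (p * M')} (hf : FinGen p M' A f) : FinGen p M' A f⁻¹ := by
  obtain ⟨r₁, r₂, h1, h2, h3, h4⟩ := hf
  refine ⟨r₁⁻¹, r₂⁻¹, isRedInf_inv _ A h1, ?_, pDivSeries_inv p M' h3, pDivSeries_inv p M' h4⟩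
  show IsRedInf (p * M') A (wF (p * M') f⁻¹) r₂⁻¹
  rw [map_inv₀]
  exact isRedInf_inv _ A h2

theorem splitGen_one : SplitGen p M' A (1 : FF (p * M')) :=
  ⟨1, 1, isRedInf_one _ A, by
    show IsRedInf (p * M') A (wF (p * M') 1) 1
    rw [map_one]; exact isRedInf_one _ A, pDivSeries_one p M', pDivSeries_one p M',
    splitSeries_one p, splitSeries_one p⟩

theorem splitGen_mul {f g : FF (p * M')} (hf : SplitGen p M' A f) (hg : SplitGen p M' A g) :
    SplitGen p M' A (f * g) := by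
  obtain ⟨r₁, r₂, h1, h2, h3, h4, h5, h6⟩ := hf
  obtain ⟨s₁, s₂, k1, k2, k3, k4, k5, k6⟩ := hg
  refine ⟨r₁ * s₁, r₂ * s₂, isRedInf_mul _ A h1 k1, ?_, pDivSeries_mul p M' h3 k3,
    pDivSeries_mul p M' h4 k4, splitSeries_mul p h5 k5, splitSeries_mul p h6 k6⟩
  show IsRedInf (p * M') A (wF (p * M') (f * g)) (r₂ * s₂)
  rw [map_mul]
  exact isRedInf_mul _ A h2 k2

theorem splitGen_inv {f : FF (p * M')} (hf : SplitGen p M' A f) : SplitGen p M' A f⁻¹ := by
  obtain ⟨r₁, r₂, h1, h2, h3, h4, h5, h6⟩ := hf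
  refine ⟨r₁⁻¹, r₂⁻¹, isRedInf_inv _ A h1, ?_, pDivSeries_inv p M' h3, pDivSeries_inv p M' h4,
    splitSeries_inv p h5, splitSeries_inv p h6⟩
  show IsRedInf (p * M') A (wF (p * M') f⁻¹) r₂⁻¹
  rw [map_inv₀]
  exact isRedInf_inv _ A h2

theorem mem_finSet_of_mem_finPart {x : JZero (p * M')} (hx : x ∈ finPart p M' A) :
    x ∈ finSet p M' A := by
  unfold finPart at hx
  induction hx using AddSubgroup.closure_induction with
  | mem x hx => exact hx
  | zero => exact ⟨1, isKummerGen_one _ p, finGen_one p M' A⟩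
  | add x y _ _ hx hy =>
    obtain ⟨f, hf, hf'⟩ := hx
    obtain ⟨g, hg, hg'⟩ := hy
    exact ⟨f * g, isKummerGen_mul _ p hf hg, finGen_mul p M' A hf' hg'⟩
  | neg x _ hx =>
    obtain ⟨f, hf, hf'⟩ := hx
    exact ⟨f⁻¹, isKummerGen_inv _ p hf, finGen_inv p M' A hf'⟩

theorem mem_splitSet_of_mem_splitPart {x : JZero (p * M')} (hx : x ∈ splitPart p M' A) :
    x ∈ splitSet p M' A := by
  unfold splitPart at hx
  induction hx using AddSubgroup.closure_induction with
  | mem x hx => exact hx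
  | zero => exact ⟨1, isKummerGen_one _ p, splitGen_one p M' A⟩
  | add x y _ _ hx hy =>
    obtain ⟨f, hf, hf'⟩ := hx
    obtain ⟨g, hg, hg'⟩ := hy
    exact ⟨f * g, isKummerGen_mul _ p hf hg, splitGen_mul p M' A hf' hg'⟩
  | neg x _ hx =>
    obtain ⟨f, hf, hf'⟩ := hx
    exact ⟨f⁻¹, isKummerGen_inv _ p hf, splitGen_inv p M' A hf'⟩

end Closed

/-- **CLOSED (𝓕).** -/
theorem finClosed : FinClosedStatement :=
  fun p M' _ _ _ _ _ A _ _ hx => mem_finSet_of_mem_finPart p M' A hx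

/-- **CLOSED (𝒮).** -/
theorem splitClosed : SplitClosedStatement :=
  fun p M' _ _ _ _ _ A _ _ hx => mem_splitSet_of_mem_splitPart p M' A hx

end Fermat.Agent.Ribet.H944.I2

end
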