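import Fermat.Agent.Ribet.H944.DlogKnorm

/-!
# Row 38, WALL-p, I2 leaf DLOG-EX (helper944)

`dlogEx : I2.DlogExStatement` — for `h ≠ 0` in `k((t))` the logarithmic derivative `θh / h` is a
power series: `h = t^n · u`, `u ∈ k⟦t⟧ˣ`, `θh / h = n + θu · u⁻¹`.
-/

set_option autoImplicit false
set_option linter.style.haveILetI false
set_option synthInstance.maxHeartbeats 400000
set_option maxHeartbeats 1000000

noncomputable section

namespace Fermat.Agent.Ribet.H944.I2

open HahnSeries ModularCurve
open Fermat.Agent.Ribet.H376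

section

variable {k : Type} [Field k]

/-- `θ` of a power series, as a power series. -/
def thetaPS (u : PowerSeries k) : PowerSeries k :=
  PowerSeries.mk fun j => (j : k) * PowerSeries.coeff j u

theorem thetaL_ofPowerSeries (u : PowerSeries k) :
    thetaL (ofPowerSeries ℤ k u) = ofPowerSeries ℤ k (thetaPS u) := by
  ext n
  rw [thetaL_coeff, PowerSeries.coeff_coe, PowerSeries.coeff_coe]
  split_ifs with hn
  · rw [mul_zero]
  · rw [thetaPS, PowerSeries.coeff_mk]
    congr 1
    have h0 : 0 ≤ n := not_lt.mp hn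
    obtain ⟨m, rfl⟩ := Int.eq_ofNat_of_zero_le h0
    simp

theorem thetaL_single_one (n : ℤ) :
    thetaL (single n (1 : k)) = C (n : k) * single n (1 : k) := by
  ext m
  rw [thetaL_coeff, C_mul_eq_smul, coeff_smul, smul_eq_mul]
  by_cases h : m = n
  · subst h
    rfl
  · rw [coeff_single_of_ne h, mul_zero, mul_zero]

end

/-- **DLOG-EX.** -/
theorem dlogEx : DlogExStatement := by
  intro k _ h h0
  set u : PowerSeries k := LaurentSeries.powerSeriesPart h with hu
  set n : ℤ := h.order with hn
  have hdec : single n (1 : k) * ofPowerSeries ℤ k u = h :=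
    LaurentSeries.single_order_mul_powerSeriesPart h
  have hu0 : PowerSeries.constantCoeff u ≠ 0 := by
    rw [← PowerSeries.coeff_zero_eq_constantCoeff_apply, hu,
      LaurentSeries.powerSeriesPart_coeff]
    simp only [Nat.cast_zero, add_zero]
    exact fun e => h0 (HahnSeries.coeff_order_eq_zero.mp e)
  have hinv : u * u⁻¹ = 1 := PowerSeries.mul_inv_cancel u hu0
  refine ⟨PowerSeries.C (n : k) + thetaPS u * u⁻¹, ?_⟩
  apply isDlog_of_isDlogL
  unfold IsDlogL
  have hinv' : ofPowerSeries ℤ k u * ofPowerSeries ℤ k u⁻¹ = 1 := by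
    rw [← map_mul, hinv, map_one]
  have hC : ofPowerSeries ℤ k (PowerSeries.C (n : k)) = C (n : k) := by
    simp
  calc thetaL h = thetaL (single n (1 : k) * ofPowerSeries ℤ k u) := by rw [hdec]
    _ = C (n : k) * single n (1 : k) * ofPowerSeries ℤ k u +
          single n (1 : k) * ofPowerSeries ℤ k (thetaPS u) := by
        rw [thetaL_mul, thetaL_single_one, thetaL_ofPowerSeries]
    _ = (C (n : k) + ofPowerSeries ℤ k (thetaPS u) * ofPowerSeries ℤ k u⁻¹) *
          (single n (1 : k) * ofPowerSeries ℤ k u) := by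
        have e : ofPowerSeries ℤ k (thetaPS u) * ofPowerSeries ℤ k u⁻¹ *
            (single n (1 : k) * ofPowerSeries ℤ k u) =
            single n (1 : k) * ofPowerSeries ℤ k (thetaPS u) *
              (ofPowerSeries ℤ k u * ofPowerSeries ℤ k u⁻¹) := by ring
        rw [add_mul, e, hinv', mul_one]
        ring
    _ = ofPowerSeries ℤ k (PowerSeries.C (n : k) + thetaPS u * u⁻¹) * h := by
        rw [hdec, map_add, map_mul, hC]

end Fermat.Agent.Ribet.H944.I2

end
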