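import Fermat.Agent.Ribet.H944.I2Spec
import Fermat.Agent.Ribet.H801.DegKummer
import Fermat.Agent.Lib.FF460.Hecke

/-!
# Row 38, WALL-p, I2 leaf KUMEIG (helper944)

`kumEig : I2.KumEigStatement`: if `f` is a Kummer generator of `x` (`div f = p·D`, `x = [D]`) and
`T_ℓ x = a x`, then `Nm_α(β f) = c · f ^ a · G ^ p` with `c ∈ ℚ̄ˣ`, `G ≠ 0`.
(`S29.H395.heckeOperatorBar_mk`: `p · T_ℓ D = div (Nm_α(β f))`; functions without zeros and poles
are constant.)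
-/

set_option autoImplicit false
set_option linter.style.haveILetI false
set_option linter.unusedSectionVars false
set_option synthInstance.maxHeartbeats 400000
set_option maxHeartbeats 1000000

noncomputable section

namespace Fermat.Agent.Ribet.H944.I2

open AlgebraicCurve ModularCurve HahnSeries
open Fermat.Agent.S24
open Fermat.Agent.Ribet.Spec Fermat.Agent.Ribet.H944.Wall Fermat.Agent.Ribet.H884

/-- **KUMEIG.** -/
theorem kumEig : KumEigStatement := by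
  intro N p _ hp S a x f hfK heig ℓ _ hℓ hℓS _
  obtain ⟨hf0, D, rfl, hD⟩ := hfK
  have hHI : HeckeInputsAlong (AlgebraicClosure ℚ) N ℓ :=
    Fermat.Agent.Lib.FF460.heckeInputsAlong_bar N ℓ
  obtain ⟨D', hD', hD'ord⟩ := Fermat.Agent.S29.H395.heckeOperatorBar_mk N ⟨ℓ, hℓ⟩ hHI D
  have hord : ∀ v : Place Kbar (FF N), (p : ℤ) * (D' : Divisor Kbar (FF N)) v =
      v.ord (hNorm N ℓ f) :=
    hD'ord (p : ℤ) f hf0 (fun v => (hD v).symm)
  have he : Pic0.mk D' = Pic0.mk (a ℓ • D) := by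
    rw [← hD']
    exact heig ⟨ℓ, hℓ⟩ hℓS
  obtain ⟨G, hG0, hG⟩ := Fermat.Agent.S29.H395.mk_eq_mk_iff.mp he
  have hN0 : hNorm N ℓ f ≠ 0 := Fermat.Agent.S29.H395.heckeNorm_ne_zero N ℓ hHI hf0
  have hfa0 : f ^ (a ℓ) ≠ 0 := zpow_ne_zero _ hf0
  have hGp0 : G ^ p ≠ 0 := pow_ne_zero _ hG0
  set u : FF N := hNorm N ℓ f * (f ^ (a ℓ))⁻¹ * (G ^ p)⁻¹ with hu
  have hu0 : u ≠ 0 := mul_ne_zero (mul_ne_zero hN0 (inv_ne_zero hfa0)) (inv_ne_zero hGp0)
  have hou : ∀ v : Place Kbar (FF N), v.ord u = 0 := by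
    intro v
    rw [hu, v.ord_mul (mul_ne_zero hN0 (inv_ne_zero hfa0)) (inv_ne_zero hGp0),
      v.ord_mul hN0 (inv_ne_zero hfa0), v.ord_inv, v.ord_inv, v.ord_zpow,
      Fermat.Agent.Ribet.H801.ord_pow_nat, ← hord v, hD v, ← hG v]
    simp only [AddSubgroup.coe_zsmul, Finsupp.coe_smul, Pi.smul_apply, smul_eq_mul]
    ring
  obtain ⟨c, hc⟩ := Fermat.Agent.Ribet.H801.constOfOrdZero_bar N u hu0 hou
  have hc0 : c ≠ 0 := by
    rintro rfl
    rw [map_zero] at hc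
    exact hu0 hc
  refine ⟨c, G, hc0, hG0, ?_⟩
  rw [← hc, hu]
  field_simp

end Fermat.Agent.Ribet.H944.I2

end
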