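import Fermat.Agent.Ribet.H944.TameLevel
import Fermat.Agent.Ribet.H785.KummerGen

/-!
# Row 38, WALL-p, (S4) CORE-OUT: the WILD LEVEL `E₂ = E₁(u)`  (helper944)

`A ∣ p`, `I` its inertia group, `I₁ = {τ ∈ I | τ|μ_p = 1}`, `ζ` a primitive `p`-th root of unity,
`E₁ = tameLevel A ζ = ℚ̄^{I₁}`, `u ∈ ℚ̄` with `u ^ p ∈ E₁` (the Kummer generator of the field of
definition of the class `x`, `H785.exists_kummer_gen`).

* `wildLevel A ζ u`       : `E₂ = ℚ̄^I(ζ, u) = E₁(u)`;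
* `mem_wildLevel_iff_fixed` : `y ∈ E₂ ↔ y` is fixed by `{ρ ∈ I₁ | ρ u = u}` (Galois correspondence);
* `goodField_wildLevel`   : `E₂` is a good level (`A2.GoodField`) as soon as `E₂ / ℚ̄^I` is normal
                            (`hnorm : ρ ∈ I₁, ρ u = u ⟹ ρ (τ u) = τ u` for `τ ∈ I`);
* `hnorm_of_kummer`       : `hnorm` in the setting of the crux (S4);
* `pow_apply_eq_of_mem_wildLevel` : `σ₁ ^ p = 1` on `E₂` (`σ₁ ∈ I₁`, `σ₁ u = ζ u`);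
* `mem_tameLevel_of_fixed` : the fixed field of `σ₁` in `E₂` is `E₁`;
* `exists_wildLevel`      : the whole package in the setting of `H704.CoreOut.WildStatement`.
-/

set_option autoImplicit false
set_option linter.unusedSectionVars false
set_option linter.style.haveILetI false

noncomputable section

namespace Fermat.Agent.Ribet.H944.Tame

open Fermat.Agent.A2 Fermat.Agent.A2.IF.H429 Fermat.Agent.Ribet.H785
open Fermat.Agent.S55.Bridge Fermat.Agent.Ribet.Spec Fermat.Agent.Ribet.H944.Wall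

attribute [local instance] isAlgebraic_Qbar isGalois_Qbar

variable (A : ValuationSubring Qb) {p : ℕ}

/-- The wild level over the inertia field: `ℚ̄^I(ζ, u)`. -/
def wildLevel₁ (ζ u : Qb) : IntermediateField (inertiaField A) Qb :=
  IntermediateField.adjoin (inertiaField A) (conjSet {ζ} ∪ {u})

instance wildLevel₁_finiteDimensional (ζ u : Qb) :
    FiniteDimensional (inertiaField A) (wildLevel₁ A ζ u) := by
  haveI : Finite (conjSet {ζ} ∪ {u} : Set Qb) :=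
    ((conjSet_finite {ζ}).union (Set.finite_singleton u)).to_subtype
  exact IntermediateField.finiteDimensional_adjoin
    (fun x _ => Algebra.IsIntegral.isIntegral x)

/-- The wild level `E₂ = E₁(u)`. -/
def wildLevel (ζ u : Qb) : IntermediateField ℚ Qb :=
  (wildLevel₁ A ζ u).restrictScalars ℚ

theorem mem_wildLevel_iff (ζ u x : Qb) : x ∈ wildLevel A ζ u ↔ x ∈ wildLevel₁ A ζ u := Iff.rfl

theorem inertiaField_le_wildLevel (ζ u : Qb) : inertiaField A ≤ wildLevel A ζ u := by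
  intro x hx
  rw [mem_wildLevel_iff]
  exact (wildLevel₁ A ζ u).algebraMap_mem ⟨x, hx⟩

theorem u_mem_wildLevel (ζ u : Qb) : u ∈ wildLevel A ζ u := by
  rw [mem_wildLevel_iff]
  exact IntermediateField.subset_adjoin _ _ (Set.mem_union_right _ rfl)

theorem tameLevel_le_wildLevel (ζ u : Qb) : tameLevel A ζ ≤ wildLevel A ζ u := by
  intro x hx
  rw [mem_wildLevel_iff]
  have hx' : x ∈ level₁ A {ζ} := hx
  exact IntermediateField.adjoin.mono _ _ _ Set.subset_union_left hx'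

/-- An automorphism fixing the inertia field, the conjugates of `ζ` and `u` fixes `E₂`. -/
theorem wildLevel_fixed (ζ u : Qb) (ρ : Qb ≃ₐ[ℚ] Qb)
    (hρ : ∀ e ∈ inertiaField A, ρ e = e) (hS : ∀ x ∈ conjSet {ζ}, ρ x = x) (hu : ρ u = u)
    {x : Qb} (hx : x ∈ wildLevel A ζ u) : ρ x = x := by
  rw [mem_wildLevel_iff] at hx
  unfold wildLevel₁ at hx
  induction hx using IntermediateField.adjoin_induction with
  | mem x hx =>
    rcases hx with hx | hx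
    · exact hS x hx
    · rw [Set.mem_singleton_iff.mp hx]; exact hu
  | algebraMap x => exact hρ _ x.2
  | add x y _ _ hx hy => rw [map_add, hx, hy]
  | inv x _ hx => rw [map_inv₀, hx]
  | mul x y _ _ hx hy => rw [map_mul, hx, hy]

/-- The conjugates of `ζ` are `p`-th roots of unity. -/
theorem pow_eq_one_of_mem_conjSet {ζ : Qb} (hζp : ζ ^ p = 1) {z : Qb}
    (hz : z ∈ conjSet {ζ}) : z ^ p = 1 := by
  rw [mem_conjSet_iff, Finset.prod_singleton] at hz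
  have hdvd : minpoly ℚ ζ ∣ (Polynomial.X ^ p - 1 : Polynomial ℚ) :=
    minpoly.dvd ℚ ζ (by simp [hζp])
  obtain ⟨q, hq⟩ := hdvd
  have h1 := congrArg (Polynomial.aeval z) hq
  rw [map_mul, hz, zero_mul] at h1
  simpa [sub_eq_zero] using h1

/-- `E₂` is fixed by the elements of `I₁` fixing `u`. -/
theorem fixed_of_mem_wildLevel {ζ : Qb} (hζp : ζ ^ p = 1) {u x : Qb}
    (hx : x ∈ wildLevel A ζ u) :
    ∀ ρ ∈ A.inertiaSubgroupIn ℚ, CycloAt p ρ 1 → ρ u = u → ρ x = x := by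
  intro ρ hρ hρ1 hρu
  refine wildLevel_fixed A ζ u ρ (fun e he => (mem_inertiaField_iff A).mp he ρ hρ) ?_ hρu hx
  intro z hz
  have h2 := hρ1 z (pow_eq_one_of_mem_conjSet hζp hz)
  rwa [pow_one] at h2

/-- Everything fixed by the elements of `I₁` fixing `u` lies in `E₂`. -/
theorem mem_wildLevel_of_fixed {ζ : Qb} (hζ : IsPrimitiveRoot ζ p) (hp0 : p ≠ 0) {u x : Qb}
    (hx : ∀ ρ ∈ A.inertiaSubgroupIn ℚ, CycloAt p ρ 1 → ρ u = u → ρ x = x) :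
    x ∈ wildLevel A ζ u := by
  haveI : NeZero p := ⟨hp0⟩
  apply mem_of_fixed
  intro σ hσ
  have hσI : σ ∈ A.inertiaSubgroupIn ℚ := by
    apply Fermat.Agent.A2.IF.H9.mem_inertiaSubgroupIn_of_fixes_fixedField
    intro y hy
    exact hσ y (inertiaField_le_wildLevel A ζ u hy)
  refine hx σ hσI (fun ζ' hζ' => ?_) (hσ u (u_mem_wildLevel A ζ u))
  obtain ⟨k, -, rfl⟩ := hζ.eq_pow_of_pow_eq_one hζ'
  rw [pow_one, map_pow,
    hσ ζ (tameLevel_le_wildLevel A ζ u (zeta_mem_tameLevel A ζ))]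

/-- **Galois correspondence for `E₂`.** -/
theorem mem_wildLevel_iff_fixed {ζ : Qb} (hζ : IsPrimitiveRoot ζ p) (hp0 : p ≠ 0) (u x : Qb) :
    x ∈ wildLevel A ζ u ↔
      ∀ ρ ∈ A.inertiaSubgroupIn ℚ, CycloAt p ρ 1 → ρ u = u → ρ x = x :=
  ⟨fixed_of_mem_wildLevel A hζ.pow_eq_one, mem_wildLevel_of_fixed A hζ hp0⟩

/-- Conjugation by `τ ∈ I` preserves `I₁`. -/
theorem cycloAt_conj {τ ρ : Qb ≃ₐ[ℚ] Qb} (hρ1 : CycloAt p ρ 1) :
    CycloAt p (τ⁻¹ * ρ * τ) 1 := by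
  intro z hz
  rw [pow_one]
  have h1 : (τ z) ^ p = 1 := by rw [← map_pow, hz, map_one]
  have h2 := hρ1 (τ z) h1
  rw [pow_one] at h2
  show τ⁻¹ (ρ (τ z)) = z
  rw [h2]
  show (τ⁻¹ * τ) z = z
  rw [inv_mul_cancel, AlgEquiv.one_apply]

/-- `E₂` is stable under inertia when `E₂ / ℚ̄^I` is normal. -/
theorem wildLevel_stable {ζ : Qb} (hζ : IsPrimitiveRoot ζ p) (hp0 : p ≠ 0) {u : Qb}
    (hnorm : ∀ τ ∈ A.inertiaSubgroupIn ℚ, ∀ ρ ∈ A.inertiaSubgroupIn ℚ, CycloAt p ρ 1 →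
      ρ u = u → ρ (τ u) = τ u)
    {τ : Qb ≃ₐ[ℚ] Qb} (hτ : τ ∈ A.inertiaSubgroupIn ℚ) {e : Qb}
    (he : e ∈ wildLevel A ζ u) : τ e ∈ wildLevel A ζ u := by
  apply mem_wildLevel_of_fixed A hζ hp0
  intro ρ hρ hρ1 hρu
  have h1 : (τ⁻¹ * ρ * τ) ∈ A.inertiaSubgroupIn ℚ :=
    mul_mem (mul_mem (inv_mem hτ) hρ) hτ
  have h2 : (τ⁻¹ * ρ * τ) u = u := by
    show τ⁻¹ (ρ (τ u)) = u
    rw [hnorm τ hτ ρ hρ hρ1 hρu]
    show (τ⁻¹ * τ) u = u
    rw [inv_mul_cancel, AlgEquiv.one_apply]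
  have h3 := fixed_of_mem_wildLevel A hζ.pow_eq_one he _ h1 (cycloAt_conj hρ1) h2
  have h4 : τ ((τ⁻¹ * ρ * τ) e) = ρ (τ e) := by
    show τ (τ⁻¹ (ρ (τ e))) = ρ (τ e)
    show (τ * τ⁻¹) (ρ (τ e)) = ρ (τ e)
    rw [mul_inv_cancel, AlgEquiv.one_apply]
  rw [← h4, h3]

/-- `E₂` is discretely valued. -/
theorem isDiscreteValuationRing_wildLevel (hp : p.Prime) (hA : A.LiesOverPrime p) (ζ u : Qb) :
    IsDiscreteValuationRing (A.comap (algebraMap (wildLevel A ζ u) Qb)) :=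
  isDiscreteValuationRing_RE_of_pow A p hp hA (wildLevel A ζ u)
    (Module.finrank (inertiaField A) (wildLevel₁ A ζ u)).factorial (Nat.factorial_pos _)
    (fun x hx hx0 => exists_pow_valuation_eq A p hp hA (wildLevel₁ A ζ u) x hx hx0)

/-- Every element of the inertia group has finite order on `E₂`. -/
theorem wildLevel_finite_order (ζ u : Qb) {τ : Qb ≃ₐ[ℚ] Qb}
    (hτ : τ ∈ A.inertiaSubgroupIn ℚ) :
    ∃ r : ℕ, 0 < r ∧ ∀ e : Qb, e ∈ wildLevel A ζ u → (⇑τ)^[r] e = e := by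
  classical
  obtain ⟨r, hr, hT⟩ := exists_pow_fixes_finset τ (insert u (conjSet_finite {ζ}).toFinset)
  refine ⟨r, hr, fun e he => ?_⟩
  rw [iterate_eq_pow_apply]
  refine wildLevel_fixed A ζ u (τ ^ r) ?_ ?_ ?_ he
  · intro e he
    exact (mem_inertiaField_iff A).mp he (τ ^ r) (Subgroup.pow_mem _ hτ r)
  · intro x hx
    exact hT x (Finset.mem_insert_of_mem ((conjSet_finite {ζ}).mem_toFinset.mpr hx))
  · exact hT u (Finset.mem_insert_self _ _)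

/-- **The wild level is a good level.** -/
theorem goodField_wildLevel (hp : p.Prime) (hA : A.LiesOverPrime p) {ζ : Qb}
    (hζ : IsPrimitiveRoot ζ p) {u : Qb}
    (hnorm : ∀ τ ∈ A.inertiaSubgroupIn ℚ, ∀ ρ ∈ A.inertiaSubgroupIn ℚ, CycloAt p ρ 1 →
      ρ u = u → ρ (τ u) = τ u) :
    GoodField A (wildLevel A ζ u) where
  stable := fun _ hτ _ he => wildLevel_stable A hζ hp.ne_zero hnorm hτ he
  dvr := isDiscreteValuationRing_wildLevel A hp hA ζ u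
  henselian := henselian_RE A (wildLevel A ζ u) (inertiaField_le_wildLevel A ζ u)
  algClosed := isAlgClosed_residueField_RE A (wildLevel A ζ u) p hp hA
    (inertiaField_le_wildLevel A ζ u)
  trivial_mod := fun _ hτ _ _ heP => sub_mem_nonunits_of_inertia A hτ heP
  finite_order := fun _ hτ => wildLevel_finite_order A ζ u hτ

/-! ## The generator `σ₁` of `Gal(E₂ / E₁)` -/

section Gen

variable {A}

theorem pow_apply_u {ζ u : Qb} {σ : Qb ≃ₐ[ℚ] Qb} (hσζ : σ ζ = ζ) (hσu : σ u = ζ * u) (k : ℕ) :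
    (σ ^ k) u = ζ ^ k * u := by
  induction k with
  | zero => simp
  | succ k ih =>
    rw [pow_succ', AlgEquiv.mul_apply, ih, map_mul, map_pow, hσζ, hσu]
    ring

theorem cycloAt_pow {σ : Qb ≃ₐ[ℚ] Qb} (hσ1 : CycloAt p σ 1) (k : ℕ) : CycloAt p (σ ^ k) 1 := by
  intro z hz
  rw [pow_one]
  induction k with
  | zero => simp
  | succ k ih =>
    rw [pow_succ', AlgEquiv.mul_apply, ih]
    have := hσ1 z hz
    rwa [pow_one] at this

/-- `σ₁ ^ p = 1` on `E₂`. -/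
theorem pow_apply_eq_of_mem_wildLevel {ζ u : Qb} (hζp : ζ ^ p = 1) {σ : Qb ≃ₐ[ℚ] Qb}
    (hσ : σ ∈ A.inertiaSubgroupIn ℚ) (hσ1 : CycloAt p σ 1) (hσu : σ u = ζ * u) {e : Qb}
    (he : e ∈ wildLevel A ζ u) : (σ ^ p) e = e := by
  have hσζ : σ ζ = ζ := by
    have := hσ1 ζ hζp
    rwa [pow_one] at this
  refine fixed_of_mem_wildLevel A hζp he (σ ^ p) (Subgroup.pow_mem _ hσ p) (cycloAt_pow hσ1 p) ?_
  rw [pow_apply_u hσζ hσu, hζp, one_mul]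

theorem pow_apply_eq_self {σ : Qb ≃ₐ[ℚ] Qb} {e : Qb} (h : σ e = e) (k : ℕ) :
    (σ ^ k) e = e := by
  induction k with
  | zero => simp
  | succ k ih => rw [pow_succ', AlgEquiv.mul_apply, ih, h]

/-- **The fixed field of `σ₁` in `E₂` is `E₁`.** -/
theorem mem_tameLevel_of_fixed {ζ u : Qb} (hζ : IsPrimitiveRoot ζ p) (hp0 : p ≠ 0)
    (hu0 : u ≠ 0) (hup : InK1 A p (u ^ p)) {σ : Qb ≃ₐ[ℚ] Qb}
    (hσ : σ ∈ A.inertiaSubgroupIn ℚ) (hσ1 : CycloAt p σ 1) (hσu : σ u = ζ * u) {e : Qb}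
    (he : e ∈ wildLevel A ζ u) (hσe : σ e = e) : e ∈ tameLevel A ζ := by
  haveI : NeZero p := ⟨hp0⟩
  have hσζ : σ ζ = ζ := by
    have := hσ1 ζ hζ.pow_eq_one
    rwa [pow_one] at this
  apply mem_tameLevel_of_inK1 A hζ hp0
  intro ρ hρ hρ1
  -- `ρ u = ζ ^ j u`
  have h1 : (ρ u / u) ^ p = 1 := by
    rw [div_pow, ← map_pow, hup ρ hρ hρ1, div_self (pow_ne_zero p hu0)]
  obtain ⟨j, -, hj⟩ := hζ.eq_pow_of_pow_eq_one h1
  have hρu : ρ u = ζ ^ j * u := by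
    rw [hj, div_mul_cancel₀ _ hu0]
  -- `(σ ^ j)⁻¹ ρ` fixes `u`
  have h2 : ((σ ^ j)⁻¹ * ρ) u = u := by
    show (σ ^ j)⁻¹ (ρ u) = u
    rw [hρu, ← pow_apply_u hσζ hσu j]
    show ((σ ^ j)⁻¹ * (σ ^ j)) u = u
    rw [inv_mul_cancel, AlgEquiv.one_apply]
  have h3 : ((σ ^ j)⁻¹ * ρ) ∈ A.inertiaSubgroupIn ℚ :=
    mul_mem (inv_mem (Subgroup.pow_mem _ hσ j)) hρ
  have h4 : CycloAt p ((σ ^ j)⁻¹ * ρ) 1 := by
    intro z hz
    rw [pow_one]
    have ha : ρ z = z := by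
      have := hρ1 z hz
      rwa [pow_one] at this
    have hb : (σ ^ j) z = z := by
      have := cycloAt_pow hσ1 j z hz
      rwa [pow_one] at this
    show (σ ^ j)⁻¹ (ρ z) = z
    rw [ha]
    have hc : (σ ^ j)⁻¹ ((σ ^ j) z) = z := by
      show ((σ ^ j)⁻¹ * (σ ^ j)) z = z
      rw [inv_mul_cancel, AlgEquiv.one_apply]
    rw [hb] at hc
    exact hc
  have h5 : ((σ ^ j)⁻¹ * ρ) e = e := fixed_of_mem_wildLevel A hζ.pow_eq_one he _ h3 h4 h2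
  have h6 : (σ ^ j) e = e := pow_apply_eq_self hσe j
  have h7 : (σ ^ j) (((σ ^ j)⁻¹ * ρ) e) = ρ e := by
    show (σ ^ j) ((σ ^ j)⁻¹ (ρ e)) = ρ e
    show ((σ ^ j) * (σ ^ j)⁻¹) (ρ e) = ρ e
    rw [mul_inv_cancel, AlgEquiv.one_apply]
  rw [← h7, h5, h6]

end Gen

/-! ## The setting of the crux (S4) -/

section Action

variable {A} {X : Type*} [AddCommGroup X] [DistribMulAction GQ X]

/-- `E₂ / ℚ̄^I` is normal in the setting of the crux (S4). -/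
theorem hnorm_of_kummer {x t : X} {u : Qb}
    (ht : ∀ σ ∈ A.inertiaSubgroupIn ℚ, ∀ c : ℕ, CycloAt p σ c → σ • t = c • t)
    (hxt : ∀ σ ∈ A.inertiaSubgroupIn ℚ, ∃ n : ℕ, σ • x = x + n • t)
    (h6 : ∀ σ ∈ A.inertiaSubgroupIn ℚ, CycloAt p σ 1 → (σ • x = x ↔ σ u = u)) :
    ∀ τ ∈ A.inertiaSubgroupIn ℚ, ∀ ρ ∈ A.inertiaSubgroupIn ℚ, CycloAt p ρ 1 →
      ρ u = u → ρ (τ u) = τ u := by
  intro τ hτ ρ hρ hρ1 hρu
  have hρx : ρ • x = x := (h6 ρ hρ hρ1).mpr hρu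
  have hρt : ρ • t = t := by rw [ht ρ hρ 1 hρ1, one_nsmul]
  obtain ⟨n, hn⟩ := hxt τ hτ
  have h1 : (τ⁻¹ * ρ * τ) • x = x := by
    rw [mul_smul, mul_smul, hn, smul_add, hρx, smul_comm ρ n t, hρt, ← hn, inv_smul_smul]
  have h2 : (τ⁻¹ * ρ * τ) ∈ A.inertiaSubgroupIn ℚ :=
    mul_mem (mul_mem (inv_mem hτ) hρ) hτ
  have h3 : (τ⁻¹ * ρ * τ) u = u := (h6 _ h2 (cycloAt_conj hρ1)).mp h1
  have h4 : τ ((τ⁻¹ * ρ * τ) u) = ρ (τ u) := by
    show τ (τ⁻¹ (ρ (τ u))) = ρ (τ u)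
    show (τ * τ⁻¹) (ρ (τ u)) = ρ (τ u)
    rw [mul_inv_cancel, AlgEquiv.one_apply]
  rw [← h4, h3]

/-- **LEVEL, wild part: the whole package** in the setting of `H704.CoreOut.WildStatement`:
the generator `σ₁`, the Kummer unit `u`, the good level `E₂ = E₁(u)` = the field of definition of
`x` over `E₁`, on which `σ₁` has order `p` with fixed field `E₁`. -/
theorem exists_wildLevel (hp : p.Prime) (hA : A.LiesOverPrime p) (x t : X)
    (hopen : ∃ K : IntermediateField ℚ Qb, FiniteDimensional ℚ K ∧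
      ∀ σ : GQ, (∀ a ∈ K, σ a = a) → σ • x = x)
    (ht : ∀ σ ∈ A.inertiaSubgroupIn ℚ, ∀ c : ℕ, CycloAt p σ c → σ • t = c • t)
    (hxt : ∀ σ ∈ A.inertiaSubgroupIn ℚ, ∃ n : ℕ, σ • x = x + n • t)
    (hpeu : ∀ σ : GQ, PeuFixes A p σ → σ • x = x) (hpt : p • t = 0)
    {σ₀ : GQ} (hσ₀ : σ₀ ∈ A.inertiaSubgroupIn ℚ) (hσ₀1 : CycloAt p σ₀ 1) (hσ₀x : σ₀ • x ≠ x)
    {ζ : Qb} (hζ : IsPrimitiveRoot ζ p) :
    ∃ (σ₁ : GQ) (u : Qb), σ₁ ∈ A.inertiaSubgroupIn ℚ ∧ CycloAt p σ₁ 1 ∧ σ₁ • x = x + t ∧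
      σ₁ u = ζ * u ∧ u ∈ A ∧ u⁻¹ ∈ A ∧ u ≠ 0 ∧ u ^ p ∈ tameLevel A ζ ∧
      GoodField A (wildLevel A ζ u) ∧
      (∀ e ∈ wildLevel A ζ u, (σ₁ ^ p) e = e) ∧
      (∀ e ∈ wildLevel A ζ u, σ₁ e = e → e ∈ tameLevel A ζ) ∧
      (∀ σ ∈ A.inertiaSubgroupIn ℚ, CycloAt p σ 1 →
        ∀ n : ℕ, σ • x = x + n • t → σ u = ζ ^ n * u) ∧
      (∀ y : Qb, y ∈ wildLevel A ζ u ↔
        ∀ ρ ∈ A.inertiaSubgroupIn ℚ, CycloAt p ρ 1 → ρ • x = x → ρ y = y) ∧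
      (∀ σ : GQ, PeuFixes A p σ → σ u = u) := by
  obtain ⟨σ₁, u, h1, h2, h3, h4, hu1, hu2, hu0, hup, h5, h6, h7⟩ :=
    exists_kummer_gen_of_not_fixed hp x t hopen ht hxt hpeu hpt hσ₀ hσ₀1 hσ₀x hζ
  have hnorm := hnorm_of_kummer (A := A) (p := p) (x := x) (t := t) (u := u) ht hxt h6
  refine ⟨σ₁, u, h1, h2, h3, h4, hu1, hu2, hu0, mem_tameLevel_of_inK1 A hζ hp.ne_zero hup,
    goodField_wildLevel A hp hA hζ hnorm,
    fun e he => pow_apply_eq_of_mem_wildLevel hζ.pow_eq_one h1 h2 h4 he,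
    fun e he hσe => mem_tameLevel_of_fixed hζ hp.ne_zero hu0 hup h1 h2 h4 he hσe,
    h5, fun y => ?_, h7⟩
  rw [mem_wildLevel_iff_fixed A hζ hp.ne_zero]
  constructor
  · intro h ρ hρ hρ1 hρx
    exact h ρ hρ hρ1 ((h6 ρ hρ hρ1).mp hρx)
  · intro h ρ hρ hρ1 hρu
    exact h ρ hρ hρ1 ((h6 ρ hρ hρ1).mpr hρu)

end Action

end Fermat.Agent.Ribet.H944.Tame

end
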