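/-
# RIBET row 38, WALL-p, (S4) CORE-OUT WILD: leaf LC-CONST   (helper944, wall-p architect)

Bridge between DEEP-SPLIT (helper703: `u / e_α` is deep split at `V∞` and `V₀`, where
`N_α u = e_α · h_A ^ p`) and the frame of INST-D (helper44: the cover `L₁ = K₁(h)`, `h ^ p = f_t`,
lives in `E₁((t))`, so `f_t` is normalised by LEADING COEFFICIENT `1`).

**LC-CONST.**  `f` a Kummer generator of a class `x ∈ J₀(M p)[p]`, `p` odd, `p ∤ M`,
`T_ℓ x = a · x`, `p ∤ a - (ℓ + 1)` for ONE prime `ℓ ∤ M p`, `f` fixed by a set `H` of Galois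
automorphisms.  Then
    `lcF (N_α f) = lcF f · v ^ p`,   `lcF (N_β f) = lcF f · v' ^ p`,   `v, v'` fixed by `H`.
Proof: `heckeNorm f = c · f ^ a · g ^ p`, `lcF g = 1`; leading coefficients and
`lcF (heckeNorm h)² = (lcF h)^{2(ℓ+1)}` give `c² = L^{2(ℓ+1-a)}`, `L = lcF f`; applying `N_ψ`
(`ψ = α, β`, degree `p + 1`) gives `A^{2(ℓ+1-a)} = c^{2(p+1)} · (lcF (N_ψ g)²)^p` for
`A = lcF (N_ψ f)`; so `(A / L^{p+1})^{2(ℓ+1-a)}` is a `p`-th power, and Bezout.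

Consequences at a level `E`:
* `normAlpha_const_E` : `normAlpha u = e_α · h_A ^ p` ⟹ `e_α = lc(u) · v ^ p`, `v ∈ E`;
* `deepSplit_lc` : if moreover `lc(u) = c ^ p` (e.g. `lc(u) = 1`), then `u` ITSELF is deep split:
  for every `s` there is `g ≠ 0` with `u / g ^ p ∈ (1 + w^s V∞) ∩ (1 + w^s V₀)`.
-/
import Fermat.Agent.Ribet.H703.NormConstE

set_option autoImplicit false
set_option linter.style.haveILetI false
set_option linter.unusedSectionVars false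
set_option synthInstance.maxHeartbeats 400000
set_option maxHeartbeats 1600000

noncomputable section

namespace Fermat.Agent.Ribet.H944.LcConst

open AlgebraicCurve ModularCurve HahnSeries
open Fermat.Agent.S24 Fermat.Agent.A2.H528 Fermat.Agent.S29.H395
  Fermat.Agent.S37.H818 Fermat.Agent.S29.H801
open Fermat.Agent.A2 Fermat.Agent.A2.Mod Fermat.Agent.Ribet.H232
open Fermat.Agent.Ribet.H703

section Main

variable (M p ℓ : ℕ) [NeZero M] [NeZero p] [NeZero ℓ]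

/-- **LC-CONST, abstract side**: for `ψ` of degree `p + 1` commuting with the Hecke norm and with
the Galois action. -/
theorem normAlong_lc (ψ : FF M →ₐ[Kbar] FF (M * p))
    (hd : finrankAlong Kbar ψ = p + 1)
    (hcomm : ∀ f : FF (M * p), normAlong ψ (heckeNorm (M * p) ℓ f)
      = heckeNorm M ℓ (normAlong ψ f))
    (hgal : ∀ (σ : Kbar ≃ₐ[ℚ] Kbar) (f : FF (M * p)),
      gal M σ (normAlong ψ f) = normAlong ψ (gal (M * p) σ f))
    (hp : p.Prime) (hp2 : p ≠ 2) (hℓ : ℓ.Prime) (hℓN : ¬ ℓ ∣ M * p)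
    (f : FF (M * p)) (hf0 : f ≠ 0)
    (D : Divisor.degZero (K := Kbar) (F := FF (M * p)))
    (hD : ∀ v : Place Kbar (FF (M * p)),
      v.ord f = (p : ℤ) * (D : Divisor Kbar (FF (M * p))) v)
    (a : ℤ) (hT : heckeOperatorBar (M * p) ⟨ℓ, hℓ⟩ (Pic0.mk D) = a • Pic0.mk D)
    (hNE : ¬ (p : ℤ) ∣ a - (ℓ + 1))
    (H : Set (Kbar ≃ₐ[ℚ] Kbar)) (hH : ∀ σ ∈ H, gal (M * p) σ f = f) :
    ∃ v : Kbar, v ≠ 0 ∧ (∀ σ ∈ H, σ v = v) ∧
      lcF M (normAlong ψ f) = lcF (M * p) f * v ^ p := by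
  have hℓM : ¬ ℓ ∣ M := fun h => hℓN (h.mul_right p)
  obtain ⟨c, g, hc, hg, hlg, hrel, hσc, hσg⟩ :=
    exists_kummer_rel_fixed (M * p) p ℓ hp hℓ hℓN f hf0 D hD a hT H hH
  set L : Kbar := lcF (M * p) f with hL
  set A : Kbar := lcF M (normAlong ψ f) with hA
  set G : Kbar := lcF M (normAlong ψ g) with hG
  have hL0 : L ≠ 0 := lcF_ne_zero (M * p) hf0
  have hA0 : A ≠ 0 := lcF_ne_zero M (normAlong_ne_zero703 _ hf0)
  have hG0 : G ≠ 0 := lcF_ne_zero M (normAlong_ne_zero703 _ hg)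
  -- `c² = L^{2(ℓ+1-a)}`
  have e0 : lcF (M * p) (heckeNorm (M * p) ℓ f) = c * L ^ a := by
    rw [hrel, map_mul, map_mul, lcF_algebraMap, map_zpow₀, map_pow, hlg, one_pow, mul_one]
  have e0' : (c * L ^ a) ^ 2 = L ^ (2 * (ℓ + 1)) := by
    rw [← e0]
    exact lcF_heckeNorm_sq (M * p) ℓ hℓ hℓN f
  -- the relation for `A`
  have e1 : A ^ (2 * (ℓ + 1)) = (c ^ (p + 1)) ^ 2 * (A ^ a) ^ 2 * (G ^ 2) ^ p :=
    lc_norm_rel M p ℓ ψ (p + 1) hd hℓ hℓM hcomm f g hf0 c a hrel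
  have hLa : L ^ a ≠ 0 := zpow_ne_zero a hL0
  have hAa : A ^ a ≠ 0 := zpow_ne_zero a hA0
  have hu0 : A / L ^ (p + 1) ≠ 0 := div_ne_zero hA0 (pow_ne_zero _ hL0)
  have key : (A / L ^ (p + 1)) ^ (2 * (((ℓ : ℤ) + 1) - a)) = (G ^ 2) ^ (p : ℤ) := by
    have h1 : (A / L ^ (p + 1)) ^ (2 * (((ℓ : ℤ) + 1) - a))
        = (A / L ^ (p + 1)) ^ ((2 * (ℓ + 1) : ℕ) : ℤ) * (((A / L ^ (p + 1)) ^ a) ^ 2)⁻¹ := by
      rw [← zpow_natCast ((A / L ^ (p + 1)) ^ a) 2, ← zpow_mul, ← zpow_neg, ← zpow_add₀ hu0]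
      congr 1
      push_cast
      ring
    have h2 : (L ^ (p + 1)) ^ (2 * (ℓ + 1)) = (c ^ (p + 1)) ^ 2 * ((L ^ (p + 1)) ^ a) ^ 2 := by
      have h3 : (L ^ (p + 1)) ^ (2 * (ℓ + 1)) = (L ^ (2 * (ℓ + 1))) ^ (p + 1) := by
        rw [← pow_mul, ← pow_mul, mul_comm]
      have h4 : ((L ^ (p + 1)) ^ a) ^ 2 = ((L ^ a) ^ 2) ^ (p + 1) := by
        rw [← zpow_natCast L (p + 1), ← zpow_mul, ← zpow_natCast (L ^ ((p + 1 : ℕ) * a : ℤ)) 2,
          ← zpow_mul, ← zpow_natCast (L ^ a) 2, ← zpow_mul,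
          ← zpow_natCast (L ^ (a * (2 : ℕ))) (p + 1), ← zpow_mul]
        congr 1
        ring
      rw [h3, h4, ← e0', mul_pow, mul_pow, ← pow_mul, ← pow_mul, ← pow_mul, mul_comm 2 (p + 1)]
    rw [h1, zpow_natCast, zpow_natCast, div_pow, div_zpow, div_pow, e1, h2]
    have hAa2 : (A ^ a) ^ 2 ≠ 0 := pow_ne_zero 2 hAa
    have hLa2 : ((L ^ (p + 1)) ^ a) ^ 2 ≠ 0 :=
      pow_ne_zero 2 (zpow_ne_zero a (pow_ne_zero _ hL0))
    have hcd : (c ^ (p + 1)) ^ 2 ≠ 0 := pow_ne_zero 2 (pow_ne_zero _ hc)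
    field_simp
  have hn : ¬ (p : ℤ) ∣ ((ℓ : ℤ) + 1) - a := by
    intro hd'
    apply hNE
    have : a - ((ℓ : ℤ) + 1) = -(((ℓ : ℤ) + 1) - a) := by ring
    rw [this]
    exact (dvd_neg).mpr hd'
  obtain ⟨α, β, hαβ⟩ := exists_zpow_eq_of_two_mul hu0 hp hp2 hn key
  refine ⟨L * ((G ^ 2) ^ α * (A / L ^ (p + 1)) ^ β),
    mul_ne_zero hL0 (mul_ne_zero (zpow_ne_zero α (pow_ne_zero 2 hG0)) (zpow_ne_zero β hu0)),
    ?_, ?_⟩
  · intro σ hσ
    have hσf : gal (M * p) σ f = f := hH σ hσ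
    have hσg' : gal (M * p) σ g = g := hσg σ hσ
    have hσL : σ L = L := by rw [hL, ← lcF_gal, hσf]
    have hσA : σ A = A := by rw [hA, ← lcF_gal, hgal, hσf]
    have hσG : σ G = G := by rw [hG, ← lcF_gal, hgal, hσg']
    rw [map_mul, map_mul, map_zpow₀, map_zpow₀, map_pow, map_div₀, map_pow, hσA, hσL, hσG]
  · have h1 : A = L ^ (p + 1) * (A / L ^ (p + 1)) := by
      field_simp
    rw [mul_pow, ← hαβ, ← mul_assoc, ← pow_succ']
    exact h1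

/-- **LC-CONST for `N_α`.** -/
theorem normAlpha_lc (hp : p.Prime) (hp2 : p ≠ 2) (hpM : ¬ p ∣ M) (hℓ : ℓ.Prime)
    (hℓN : ¬ ℓ ∣ M * p)
    (f : FF (M * p)) (hf0 : f ≠ 0)
    (D : Divisor.degZero (K := Kbar) (F := FF (M * p)))
    (hD : ∀ v : Place Kbar (FF (M * p)),
      v.ord f = (p : ℤ) * (D : Divisor Kbar (FF (M * p))) v)
    (a : ℤ) (hT : heckeOperatorBar (M * p) ⟨ℓ, hℓ⟩ (Pic0.mk D) = a • Pic0.mk D)
    (hNE : ¬ (p : ℤ) ∣ a - (ℓ + 1))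
    (H : Set (Kbar ≃ₐ[ℚ] Kbar)) (hH : ∀ σ ∈ H, gal (M * p) σ f = f) :
    ∃ v : Kbar, v ≠ 0 ∧ (∀ σ ∈ H, σ v = v) ∧
      lcF M (normAlong (heckeAlphaBar Kbar M p) f) = lcF (M * p) f * v ^ p := by
  have hne : ℓ ≠ p := fun h => hℓN (h ▸ dvd_mul_left ℓ M)
  exact normAlong_lc M p ℓ (heckeAlphaBar Kbar M p)
    (Fermat.Agent.Lib.X0Deg.finrankAlong_heckeAlphaBar_of_not_dvd M p hp hpM)
    (normAlpha_heckeNorm M p ℓ hp hℓ hne) (gal_normAlpha M p) hp hp2 hℓ hℓN f hf0 D hD a hT hNE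
    H hH

/-- **LC-CONST for `N_β`.** -/
theorem normBeta_lc (hp : p.Prime) (hp2 : p ≠ 2) (hpM : ¬ p ∣ M) (hℓ : ℓ.Prime)
    (hℓN : ¬ ℓ ∣ M * p)
    (f : FF (M * p)) (hf0 : f ≠ 0)
    (D : Divisor.degZero (K := Kbar) (F := FF (M * p)))
    (hD : ∀ v : Place Kbar (FF (M * p)),
      v.ord f = (p : ℤ) * (D : Divisor Kbar (FF (M * p))) v)
    (a : ℤ) (hT : heckeOperatorBar (M * p) ⟨ℓ, hℓ⟩ (Pic0.mk D) = a • Pic0.mk D)
    (hNE : ¬ (p : ℤ) ∣ a - (ℓ + 1))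
    (H : Set (Kbar ≃ₐ[ℚ] Kbar)) (hH : ∀ σ ∈ H, gal (M * p) σ f = f) :
    ∃ v : Kbar, v ≠ 0 ∧ (∀ σ ∈ H, σ v = v) ∧
      lcF M (normAlong (heckeBetaBar Kbar M p) f) = lcF (M * p) f * v ^ p := by
  have hne : ℓ ≠ p := fun h => hℓN (h ▸ dvd_mul_left ℓ M)
  exact normAlong_lc M p ℓ (heckeBetaBar Kbar M p)
    (Fermat.Agent.S37.H218.finrankAlong_heckeBetaBar_of_not_dvd M p hp hpM)
    (normBeta_heckeNorm M p ℓ hp hℓ hne) (gal_normBeta M p) hp hp2 hℓ hℓN f hf0 D hD a hT hNE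
    H hH

end Main

section Level

variable (E : IntermediateField ℚ Qb)

/-- The leading coefficient of `iota u` is the leading coefficient of `u`. -/
theorem lcF_iota (N : ℕ) [NeZero N] (u : FE E N) :
    lcF N (T1.H669.iota E (modularFunctionFieldFull N) u)
      = algebraMap E Qb (u : LaurentSeries E).leadingCoeff := by
  rw [lcF_apply]
  exact leadingCoeff_map_of_injective (algebraMap E Qb) (u : LaurentSeries E)

variable (M p ℓ : ℕ) [NeZero M] [NeZero p] [NeZero ℓ]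

/-- **LC-CONST at level `E`, `N_α`.**  If `normAlpha u = e_α · h_A ^ p`, then
`e_α = lc(u) · v ^ p` with `v ∈ E`. -/
theorem normAlpha_const_E (hp : p.Prime) (hp2 : p ≠ 2) (hpM : ¬ p ∣ M) (hℓ : ℓ.Prime)
    (hℓN : ¬ ℓ ∣ M * p) (u : FE E (M * p)) (hu : u ≠ 0)
    (D : Divisor.degZero (K := Kbar) (F := FF (M * p)))
    (hD : ∀ v : Place Kbar (FF (M * p)),
      v.ord (T1.H669.iota E (modularFunctionFieldFull (M * p)) u)
        = (p : ℤ) * (D : Divisor Kbar (FF (M * p))) v)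
    (a : ℤ) (hT : heckeOperatorBar (M * p) ⟨ℓ, hℓ⟩ (Pic0.mk D) = a • Pic0.mk D)
    (hNE : ¬ (p : ℤ) ∣ a - (ℓ + 1))
    (eα : E) (hA : FE E M)
    (hNα : normAlpha E M p u = algebraMap E (FE E M) eα * hA ^ p) :
    ∃ v : E, v ≠ 0 ∧ eα = (u : LaurentSeries E).leadingCoeff * v ^ p := by
  set H : Set (Qb ≃ₐ[ℚ] Qb) := {σ | ∀ e : E, σ (e : Qb) = (e : Qb)} with hH
  have hu' : T1.H669.iota E (modularFunctionFieldFull (M * p)) u ≠ 0 :=
    T1.H669.iota_ne_zero E _ hu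
  have hNα' : normAlong (heckeAlphaBar Kbar M p)
      (T1.H669.iota E (modularFunctionFieldFull (M * p)) u)
      = algebraMap Kbar (FF M) (algebraMap E Qb eα)
        * T1.H669.iota E (modularFunctionFieldFull M) hA ^ p := by
    rw [← Fermat.Agent.S35.H858.iota_normAlong_alpha E M p
      (Fermat.Agent.Lib.HI.H864.finiteAlong_alpha M p) u]
    have h1 : normAlong (heckeAlphaBar E M p) u = algebraMap E (FE E M) eα * hA ^ p := hNα
    rw [h1, map_mul, map_pow, T1.H669.iota_algebraMap]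
  obtain ⟨v, hv0, hvH, hv⟩ := normAlpha_lc M p ℓ hp hp2 hpM hℓ hℓN
    (T1.H669.iota E (modularFunctionFieldFull (M * p)) u) hu' D hD a hT hNE H
    (fun σ hσ => gal_iota E (M * p) σ hσ u)
  have hN0 : normAlong (heckeAlphaBar Kbar M p)
      (T1.H669.iota E (modularFunctionFieldFull (M * p)) u) ≠ 0 := normAlong_ne_zero703 _ hu'
  have hhA : T1.H669.iota E (modularFunctionFieldFull M) hA ≠ 0 := by
    intro h0
    rw [h0, zero_pow hp.ne_zero, mul_zero] at hNα'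
    exact hN0 hNα'
  have hlA : lcF M (T1.H669.iota E (modularFunctionFieldFull M) hA) ≠ 0 := lcF_ne_zero M hhA
  have hlAE : lcF M (T1.H669.iota E (modularFunctionFieldFull M) hA)
      = algebraMap E Qb (hA : LaurentSeries E).leadingCoeff := lcF_iota E M hA
  have hlA0 : (hA : LaurentSeries E).leadingCoeff ≠ 0 := by
    intro h0
    rw [hlAE, h0, map_zero] at hlA
    exact hlA rfl
  rw [hNα', map_mul, lcF_algebraMap, map_pow, hlAE, lcF_iota] at hv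
  have hvE : v ∈ E := mem_of_fixed E v (fun σ hσ => hvH σ hσ)
  refine ⟨⟨v, hvE⟩ / (hA : LaurentSeries E).leadingCoeff,
    div_ne_zero (fun h => hv0 (congrArg Subtype.val h)) hlA0, ?_⟩
  have hinj : Function.Injective (algebraMap E Qb) := (algebraMap E Qb).injective
  apply hinj
  rw [map_mul, map_pow, map_div₀]
  have hvv : algebraMap E Qb (⟨v, hvE⟩ : E) = v := rfl
  rw [hvv]
  have hlA' : algebraMap E Qb (hA : LaurentSeries E).leadingCoeff ≠ 0 := by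
    rw [← hlAE]; exact hlA
  have hlAp : algebraMap E Qb (hA : LaurentSeries E).leadingCoeff ^ p ≠ 0 := pow_ne_zero p hlA'
  rw [div_pow]
  field_simp
  exact hv

end Level

section Deep

variable {P : ValuationSubring Qb} {E : IntermediateField ℚ Qb} {M p : ℕ} [NeZero M] [NeZero p]
  {w : RE P E}

/-- **The Kummer generator with `p`-th power leading coefficient is deep split.**
Hypotheses of `H703.deepSplit_E` and `lc(u) = c ^ p` (e.g. `lc(u) = 1`): for every `s` there is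
ONE `g ≠ 0` with `u / g ^ p ∈ (1 + w^s V∞) ∩ (1 + w^s V₀)`. -/
theorem deepSplit_lc (ℓ : ℕ) [NeZero ℓ] (hS : Setting P E M p w)
    {VM : ValuationSubring (FE E M)}
    {V : ValuationSubring (FE E (M * p))} (hVM : IsVinf P E M VM) (hV : IsVinf P E (M * p) V)
    {W : FE E (M * p) ≃ₐ[E] FE E (M * p)} (hW : IsFricke E (M * p) W)
    (hp : p.Prime) (hp2 : p ≠ 2) (hpM : ¬ p ∣ M) (hℓ : ℓ.Prime)
    (hℓN : ¬ ℓ ∣ M * p) {u : FE E (M * p)} (hu : u ≠ 0)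
    (D : Divisor.degZero (K := Kbar) (F := FF (M * p)))
    (hD : ∀ v : Place Kbar (FF (M * p)),
      v.ord (T1.H669.iota E (modularFunctionFieldFull (M * p)) u)
        = (p : ℤ) * (D : Divisor Kbar (FF (M * p))) v)
    (a : ℤ) (hT : heckeOperatorBar (M * p) ⟨ℓ, hℓ⟩ (Pic0.mk D) = a • Pic0.mk D)
    (hNE : ¬ (p : ℤ) ∣ a - (ℓ + 1))
    {eα eβ : E} {hA hB : FE E M}
    (hNα : normAlpha E M p u = algebraMap E (FE E M) eα * hA ^ p)
    (hNβ : normBeta E M p u = algebraMap E (FE E M) eβ * hB ^ p)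
    (h1 : DepthE w p V 1 u ∨
      DepthE w p (V.comap (W : FE E (M * p) →+* FE E (M * p))) 1 u)
    (c : E) (hlc : (u : LaurentSeries E).leadingCoeff = c ^ p) (s : ℕ) :
    ∃ g : FE E (M * p), g ≠ 0 ∧
      (u * (g ^ p)⁻¹ - 1) * (cE P E (M * p) w ^ s)⁻¹ ∈ V ∧
      (u * (g ^ p)⁻¹ - 1) * (cE P E (M * p) w ^ s)⁻¹
        ∈ V.comap (W : FE E (M * p) →+* FE E (M * p)) := by
  obtain ⟨g, hg0, hgV, hgW⟩ := deepSplit_E ℓ hS hVM hV hW hp hp2 hpM hℓ hℓN hu D hD a hT hNE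
    hNα hNβ h1 s
  obtain ⟨v, hv0, hv⟩ := normAlpha_const_E E M p ℓ hp hp2 hpM hℓ hℓN u hu D hD a hT hNE eα hA hNα
  have hc0 : c ≠ 0 := by
    rintro rfl
    rw [zero_pow hp.ne_zero] at hlc
    have hu1 : (u : LaurentSeries E) ≠ 0 := fun h => hu (Subtype.ext h)
    exact (leadingCoeff_ne_zero.mpr hu1) hlc
  have hkey : algebraMap E (FE E (M * p)) eα * g ^ p
      = (algebraMap E (FE E (M * p)) (c * v) * g) ^ p := by
    rw [hv, hlc, mul_pow, ← map_pow, mul_pow]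
  rw [hkey] at hgV hgW
  refine ⟨algebraMap E (FE E (M * p)) (c * v) * g, mul_ne_zero ?_ hg0, hgV, hgW⟩
  rw [Ne, map_eq_zero]
  exact mul_ne_zero hc0 hv0

end Deep

end Fermat.Agent.Ribet.H944.LcConst

end
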