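import Fermat.Agent.Ribet.Spec3

/-!
# Row 38, WALL-p (Mazur-Ribet at `p`): frozen decomposition + proved glue  (wall architect helper944)

Target of the row: `Spec.AtPOccursGoodStatement` (S40) or `Spec.AtPOccursStatement` (S44).
`N = p·M'`, `p ∤ M'`, `J = JZero (p * M')`, `A` a valuation ring of `ℚ̄` over `p`,
`I = A.inertiaSubgroupIn ℚ`, `χ` = mod-`p` cyclotomic character, encoded as in `Spec.lean`:
`CycloAt p σ c` means `σ ζ = ζ ^ c` for all `p`-th roots of unity `ζ`.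

## Level 1 (W0 + WP + ordinary case)
* `IsDegPair p M' S₀ α β`  : `α, β : J₀(pM') → J₀(M')` additive, Galois-equivariant, Hecke-equivariant
  off `S₀` (the two degeneracy pushforwards; piece W-DEG).
* `WPFor p M' α β`         : **(WP)** on the new part `ker α ∩ ker β` of `J[p]`, every `σ ∈ I` satisfies
  `(σ - χ(σ))(σ - 1) = 0`   ("A2 at `p`, twisted").
* `NewKernelStatement`     : W-DEG + WP.
* `OrdCaseGoodStatement` / `OrdCaseFreyStatement` : the wall under the extra hypothesis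
  `OrdinaryInertiaAt` (`(σ - χ(σ))(σ - 1) = 0` on `E[p]` for `σ ∈ I`), i.e. the ORDINARY case.
* PROVED: `wallGood_of`, `wallFrey_of` : Places + NewKernel + OrdCase ⇒ wall.
  (Supersingular curves never satisfy `OrdinaryInertiaAt`, piece ELOC-ss; so the supersingular
  case is W-DEG + WP alone.)

## Level 2 (the ordinary case = filtration package + local theory of `E[p]`)
* `AtPFiltrationStatement` : subgroups `𝓕` ("finite part", `ker` of the slope map) and `𝒮`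
  ("split part", trivial reductions on both components) of `J` with
  (S1) `σ x - x ∈ 𝒮` for `x ∈ J[p]`, `σ ∈ I`;
  (S2) `I` acts through `χ` on the new part of `𝒮`;
  (S3) a new Hecke-eigen class in `𝓕 ∖ 𝒮` has its eigensystem at level `M'`;
  (S4) **crux (I6)**: a new, non-Eisenstein, ordinary, peu ramifiée class lies in `𝓕`.
* `ELOCOrdGoodStatement` / `ELOCOrdFreyStatement` : for `E` with `OrdinaryInertiaAt`: the line `⟨t⟩`
  with `I` acting by `χ`, trivial action on `E[p]/⟨t⟩`, and `E[p]` peu ramifiée (`PeuFixes`).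
* PROVED: `newKernel_of_filtration`, `ordCaseGood_of`, `ordCaseFrey_of`, and the total glue
  `wallGood_of_filtration`, `wallFrey_of_filtration`; `atPOccursGood_of` lands in the Spec3 shape
  when (S3) is proved with `OccursIn`.

Conclusions are stated with `Lowered` (`OccursIn` at level `M'` OR a congruent eigenform of level
`M'`), the weakest form the top glue accepts: `S40_of_wall`, `S44_of_wall` below.
-/

set_option autoImplicit false
set_option linter.style.haveILetI false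

open WeierstrassCurve WeierstrassCurve.Affine WeierstrassCurve.Affine.Point
open CuspForm ModularFormClass UpperHalfPlane ModularCurve

namespace Fermat.Agent.Ribet.H944.Wall

open Fermat.Agent.Ribet.Spec

/-! ## Vocabulary -/

/-- `σ` acts on the `p`-th roots of unity as the `c`-th power (`c = χ(σ)`). -/
def CycloAt (p : ℕ) (σ : GQ) (c : ℕ) : Prop :=
  ∀ ζ : AlgebraicClosure ℚ, ζ ^ p = 1 → σ ζ = ζ ^ c

/-- `E[p]` for an elliptic curve over `ℚ` (`WTorsion W p`, `FreyTorsion P` are instances). -/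
abbrev ETorsion (E : WeierstrassCurve ℚ) (p : ℕ) : Type :=
  Submodule.torsionBy ℤ (E⁄(AlgebraicClosure ℚ)).Point p

/-- `x` is a Hecke eigenvector with eigenvalues `a` away from `S`. -/
def EigenAt (N : ℕ) [NeZero N] (S : Finset ℕ) (a : ℕ → ℤ) (x : JZero N) : Prop :=
  ∀ ℓ : Nat.Primes, (ℓ : ℕ) ∉ S → heckeOperatorBar N ℓ x = a ℓ • x

/-- A Galois- and Hecke-equivariant embedding of `E[p]` into `J₀(N)`, eigenvalues `a` off `S`. -/
def EEmbedsIn (E : WeierstrassCurve ℚ) (p N : ℕ) [NeZero N] (S : Finset ℕ) (a : ℕ → ℤ) :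
    Prop :=
  ∃ ι : ETorsion E p →+ JZero N, Function.Injective ι ∧
    (∀ (σ : GQ) (x : ETorsion E p), ι (σ • x) = σ • ι x) ∧
    ∀ ℓ : Nat.Primes, (ℓ : ℕ) ∉ S → ∀ x : ETorsion E p,
      heckeOperatorBar N ℓ (ι x) = a ℓ • ι x

/-- A normalised eigenform of level `M` congruent to `a` modulo a prime over `p`, off `S`. -/
def EigenAway (M p : ℕ) (S : Finset ℕ) (a : ℕ → ℤ) : Prop :=
  ∃ (g : CuspForm (CongruenceSubgroup.Gamma0 M) 2) (𝔪 : Ideal (integralClosure ℤ ℂ)),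
    g.IsNormalizedEigenform ∧ 𝔪.IsMaximal ∧ (p : integralClosure ℤ ℂ) ∈ 𝔪 ∧
    ∀ ℓ : ℕ, ℓ.Prime → ℓ ∉ S →
      ∃ b : integralClosure ℤ ℂ, (b : ℂ) = qCoeff g ℓ ∧
        b - ((a ℓ : ℤ) : integralClosure ℤ ℂ) ∈ 𝔪

/-- The conclusion of the wall, weakest form: the eigensystem `a` lives at level `M'`, either on
`J₀(M')[p]` or on a congruent eigenform, away from a finite set containing `S`. -/
def Lowered (M' p : ℕ) [NeZero M'] (S : Finset ℕ) (a : ℕ → ℤ) : Prop :=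
  ∃ S' : Finset ℕ, S ⊆ S' ∧ (OccursIn M' p S' a ∨ EigenAway M' p S' a)

/-- The eigensystem `a` is not Eisenstein: outside every finite set there is a prime `ℓ` with
`a ℓ ≢ ℓ + 1 mod p`. -/
def NonEisAway (p : ℕ) (a : ℕ → ℤ) : Prop :=
  ∀ S : Finset ℕ, ∃ ℓ : ℕ, ℓ.Prime ∧ ℓ ∉ S ∧ ¬ (p : ℤ) ∣ a ℓ - (ℓ + 1)

/-- **(H)** inertia at `A` acts "ordinarily" on `E[p]`: `(σ - χ(σ))(σ - 1) = 0`. -/
def OrdinaryInertiaAt (E : WeierstrassCurve ℚ) (p : ℕ)
    (A : ValuationSubring (AlgebraicClosure ℚ)) : Prop :=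
  ∀ σ ∈ A.inertiaSubgroupIn ℚ, ∀ c : ℕ, CycloAt p σ c →
    ∀ x : ETorsion E p, σ • σ • x + c • x = (c + 1) • σ • x

/-- `σ` lies in the "peu ramifiée" subgroup of inertia at `A`: it fixes every unit `y` of `A`
whose `p`-th power lies in `K = ℚ̄^I(ζ_p)`.  (So `σ` fixes `ζ_p` and `u^{1/p}` for units `u`.) -/
def PeuFixes (A : ValuationSubring (AlgebraicClosure ℚ)) (p : ℕ) (σ : GQ) : Prop :=
  σ ∈ A.inertiaSubgroupIn ℚ ∧
    ∀ y : AlgebraicClosure ℚ, y ∈ A → y⁻¹ ∈ A →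
      (∀ τ ∈ A.inertiaSubgroupIn ℚ, CycloAt p τ 1 → τ (y ^ p) = y ^ p) → σ y = y

/-! ## Level 1 -/

/-- (W-DEG) a degeneracy pair. -/
structure IsDegPair (p M' : ℕ) [NeZero M'] [NeZero (p * M')] (S₀ : Finset ℕ)
    (α β : JZero (p * M') →+ JZero M') : Prop where
  galois_left : ∀ (σ : GQ) (x : JZero (p * M')), α (σ • x) = σ • α x
  galois_right : ∀ (σ : GQ) (x : JZero (p * M')), β (σ • x) = σ • β x
  hecke_left : ∀ ℓ : Nat.Primes, (ℓ : ℕ) ∉ S₀ → ∀ x : JZero (p * M'),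
    α (heckeOperatorBar (p * M') ℓ x) = heckeOperatorBar M' ℓ (α x)
  hecke_right : ∀ ℓ : Nat.Primes, (ℓ : ℕ) ∉ S₀ → ∀ x : JZero (p * M'),
    β (heckeOperatorBar (p * M') ℓ x) = heckeOperatorBar M' ℓ (β x)

/-- **(WP)** for the pair `(α, β)`: `(σ - χ(σ))(σ - 1) = 0` on the new part of `J[p]`. -/
def WPFor (p M' : ℕ) [NeZero M'] [NeZero (p * M')]
    (α β : JZero (p * M') →+ JZero M') : Prop :=
  ∀ A : ValuationSubring (AlgebraicClosure ℚ), A.LiesOverPrime p →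
    ∀ σ ∈ A.inertiaSubgroupIn ℚ, ∀ c : ℕ, CycloAt p σ c →
    ∀ x : JZero (p * M'), p • x = 0 → α x = 0 → β x = 0 →
      σ • σ • x + c • x = (c + 1) • σ • x

/-- (W-DEG + WP). -/
def NewKernelStatement : Prop :=
  ∀ (p M' : ℕ) [NeZero M'] [NeZero (p * M')], p.Prime → p ≠ 2 → ¬ p ∣ M' →
    ∃ (S₀ : Finset ℕ) (α β : JZero (p * M') →+ JZero M'),
      IsDegPair p M' S₀ α β ∧ WPFor p M' α β

/-- The wall for S40 (good reduction at `p`), conclusion `Lowered`. -/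
def WallGoodStatement : Prop :=
  ∀ (W : WeierstrassCurve ℤ) (p M' : ℕ) [NeZero M'] [NeZero (p * M')], W.Δ ≠ 0 → p.Prime →
    p ≠ 2 → ¬ p ∣ M' → W.IsGoodPrimeFor p → W.ModRepIsIrreducible p →
    ∀ S : Finset ℕ, EEmbedsIn (W.map (Int.castRingHom ℚ)) p (p * M') S (fun ℓ => W.apOfModel ℓ) →
      Lowered M' p S (fun ℓ => W.apOfModel ℓ)

/-- The wall for S44 (Frey curve, `p ∣ abc`), conclusion `Lowered`, non-Eisenstein eigensystem. -/
def WallFreyStatement : Prop :=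
  ∀ (P : FreyPackage) (M' : ℕ) [NeZero M'] [NeZero (P.p * M')], ¬ P.p ∣ M' →
    (P.p : ℤ) ∣ P.a * P.b * P.c →
    GaloisRepIsIrreducible (K := AlgebraicClosure ℚ) ℚ P.freyCurve P.p →
    ∀ (S : Finset ℕ) (a : ℕ → ℤ), NonEisAway P.p a →
      EEmbedsIn P.freyCurve P.p (P.p * M') S a → Lowered M' P.p S a

/-- The ORDINARY case of the wall, good reduction form. -/
def OrdCaseGoodStatement : Prop :=
  ∀ (W : WeierstrassCurve ℤ) (p M' : ℕ) [NeZero M'] [NeZero (p * M')], W.Δ ≠ 0 → p.Prime →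
    p ≠ 2 → ¬ p ∣ M' → W.IsGoodPrimeFor p → W.ModRepIsIrreducible p →
    ∀ A : ValuationSubring (AlgebraicClosure ℚ), A.LiesOverPrime p →
    OrdinaryInertiaAt (W.map (Int.castRingHom ℚ)) p A →
    ∀ S : Finset ℕ, EEmbedsIn (W.map (Int.castRingHom ℚ)) p (p * M') S (fun ℓ => W.apOfModel ℓ) →
      Lowered M' p S (fun ℓ => W.apOfModel ℓ)

/-- The ORDINARY case of the wall, Frey form. -/
def OrdCaseFreyStatement : Prop :=
  ∀ (P : FreyPackage) (M' : ℕ) [NeZero M'] [NeZero (P.p * M')], ¬ P.p ∣ M' →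
    (P.p : ℤ) ∣ P.a * P.b * P.c →
    GaloisRepIsIrreducible (K := AlgebraicClosure ℚ) ℚ P.freyCurve P.p →
    ∀ A : ValuationSubring (AlgebraicClosure ℚ), A.LiesOverPrime P.p →
    OrdinaryInertiaAt P.freyCurve P.p A →
    ∀ (S : Finset ℕ) (a : ℕ → ℤ), NonEisAway P.p a →
      EEmbedsIn P.freyCurve P.p (P.p * M') S a → Lowered M' P.p S a

section Core

variable {E : WeierstrassCurve ℚ} {p M' : ℕ} [NeZero M'] [NeZero (p * M')]

omit [NeZero M'] [NeZero (p * M')] in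
theorem nsmul_torsion_eq_zero (x : ETorsion E p) : p • x = 0 := by
  apply Subtype.ext
  have h := x.2
  rw [Submodule.mem_torsionBy_iff] at h
  rw [AddSubmonoidClass.coe_nsmul, ZeroMemClass.coe_zero, ← natCast_zsmul]
  exact h

omit [NeZero M'] [NeZero (p * M')] in
theorem nsmul_emb_eq_zero (ι : ETorsion E p →+ JZero (p * M')) (x : ETorsion E p) :
    p • ι x = 0 := by
  rw [← map_nsmul, nsmul_torsion_eq_zero, _root_.map_zero]

/-- **(W0)** if the embedded `E[p]` is not contained in the new part, the eigensystem occurs at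
level `M'`. -/
theorem occursIn_of_not_new {S S₀ : Finset ℕ} {a : ℕ → ℤ}
    {α β : JZero (p * M') →+ JZero M'} (hdeg : IsDegPair p M' S₀ α β)
    (ι : ETorsion E p →+ JZero (p * M'))
    (hT : ∀ ℓ : Nat.Primes, (ℓ : ℕ) ∉ S → ∀ x : ETorsion E p,
      heckeOperatorBar (p * M') ℓ (ι x) = a ℓ • ι x)
    (h : ∃ x, α (ι x) ≠ 0 ∨ β (ι x) ≠ 0) :
    OccursIn M' p (S ∪ S₀) a := by
  obtain ⟨x, hx | hx⟩ := h
  · refine ⟨α (ι x), hx, ?_, fun ℓ hℓ => ?_⟩
    · rw [← map_nsmul, nsmul_emb_eq_zero, _root_.map_zero]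
    · rw [Finset.mem_union, not_or] at hℓ
      rw [← hdeg.hecke_left ℓ hℓ.2, hT ℓ hℓ.1, map_zsmul]
  · refine ⟨β (ι x), hx, ?_, fun ℓ hℓ => ?_⟩
    · rw [← map_nsmul, nsmul_emb_eq_zero, _root_.map_zero]
    · rw [Finset.mem_union, not_or] at hℓ
      rw [← hdeg.hecke_right ℓ hℓ.2, hT ℓ hℓ.1, map_zsmul]

/-- (WP) transported to `E[p]` along an embedding into the new part. -/
theorem ordinaryInertiaAt_of_new {α β : JZero (p * M') →+ JZero M'}
    (hWP : WPFor p M' α β) {A : ValuationSubring (AlgebraicClosure ℚ)}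
    (hA : A.LiesOverPrime p) (ι : ETorsion E p →+ JZero (p * M'))
    (hinj : Function.Injective ι)
    (hgal : ∀ (σ : GQ) (x : ETorsion E p), ι (σ • x) = σ • ι x)
    (hnew : ∀ x, α (ι x) = 0 ∧ β (ι x) = 0) :
    OrdinaryInertiaAt E p A := by
  intro σ hσ c hc x
  apply hinj
  rw [map_add, map_nsmul, map_nsmul, hgal, hgal]
  exact hWP A hA σ hσ c hc (ι x) (nsmul_emb_eq_zero ι x) (hnew x).1 (hnew x).2

/-- Level 1 core: W-DEG + WP + the ordinary case give the wall (any curve). -/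
theorem lowered_of_newKernel {S : Finset ℕ} {a : ℕ → ℤ}
    {A : ValuationSubring (AlgebraicClosure ℚ)} (hA : A.LiesOverPrime p)
    (hK : ∃ (S₀ : Finset ℕ) (α β : JZero (p * M') →+ JZero M'),
      IsDegPair p M' S₀ α β ∧ WPFor p M' α β)
    (hO : OrdinaryInertiaAt E p A → Lowered M' p S a)
    (hemb : EEmbedsIn E p (p * M') S a) : Lowered M' p S a := by
  obtain ⟨S₀, α, β, hdeg, hWP⟩ := hK
  obtain ⟨ι, hinj, hgal, hT⟩ := hemb
  by_cases h : ∃ x, α (ι x) ≠ 0 ∨ β (ι x) ≠ 0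
  · exact ⟨S ∪ S₀, Finset.subset_union_left, Or.inl (occursIn_of_not_new hdeg ι hT h)⟩
  · have hnew : ∀ x, α (ι x) = 0 ∧ β (ι x) = 0 := by
      intro x
      by_contra hx
      apply h
      refine ⟨x, ?_⟩
      by_cases h1 : α (ι x) = 0
      · exact Or.inr (fun h2 => hx ⟨h1, h2⟩)
      · exact Or.inl h1
    exact hO (ordinaryInertiaAt_of_new hWP hA ι hinj hgal hnew)

end Core

/-- **Level 1 glue, S40 form.** -/
theorem wallGood_of (hPl : PlacesStatement) (hK : NewKernelStatement)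
    (hO : OrdCaseGoodStatement) : WallGoodStatement := by
  intro W p M' _ _ hΔ hp hp2 hpM' hgood hirr S hemb
  obtain ⟨A, hA, -⟩ := hPl p hp
  exact lowered_of_newKernel hA (hK p M' hp hp2 hpM')
    (fun hH => hO W p M' hΔ hp hp2 hpM' hgood hirr A hA hH S hemb) hemb

/-- **Level 1 glue, S44 form.** -/
theorem wallFrey_of (hPl : PlacesStatement) (hK : NewKernelStatement)
    (hO : OrdCaseFreyStatement) : WallFreyStatement := by
  intro P M' _ _ hpM' hpabc hirr S a hNE hemb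
  obtain ⟨A, hA, -⟩ := hPl P.p P.pp
  have hp2 : P.p ≠ 2 := by
    have := P.hp5
    omega
  exact lowered_of_newKernel hA (hK P.p M' P.pp hp2 hpM')
    (fun hH => hO P M' hpM' hpabc hirr A hA hH S a hNE hemb) hemb

/-! ## Level 2 -/

/-- **The at-`p` filtration package** (pieces W-DEG, I1-I5 and the crux I6 of the board). -/
def AtPFiltrationStatement : Prop :=
  ∀ (p M' : ℕ) [NeZero M'] [NeZero (p * M')], p.Prime → p ≠ 2 → ¬ p ∣ M' →
    ∃ (S₀ : Finset ℕ) (α β : JZero (p * M') →+ JZero M'), IsDegPair p M' S₀ α β ∧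
    ∀ A : ValuationSubring (AlgebraicClosure ℚ), A.LiesOverPrime p →
    ∃ 𝓕 𝒮 : AddSubgroup (JZero (p * M')),
      -- (S1) inertia acts trivially on `J[p] / 𝒮`
      (∀ x : JZero (p * M'), p • x = 0 → ∀ σ ∈ A.inertiaSubgroupIn ℚ, σ • x - x ∈ 𝒮) ∧
      -- (S2) inertia acts through `χ` on the new part of `𝒮`
      (∀ x ∈ 𝒮, p • x = 0 → α x = 0 → β x = 0 →
        ∀ σ ∈ A.inertiaSubgroupIn ℚ, ∀ c : ℕ, CycloAt p σ c → σ • x = c • x) ∧
      -- (S3) a new eigenclass in `𝓕 ∖ 𝒮` has its eigensystem at level `M'`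
      (∀ (S : Finset ℕ) (a : ℕ → ℤ), ∀ x ∈ 𝓕, x ∉ 𝒮 → p • x = 0 → α x = 0 → β x = 0 →
        EigenAt (p * M') S a x → Lowered M' p S a) ∧
      -- (S4) = I6, the crux: new + non-Eisenstein + ordinary shape + peu ramifiée ⇒ in `𝓕`
      (∀ (S : Finset ℕ) (a : ℕ → ℤ), NonEisAway p a → ∀ x t : JZero (p * M'),
        p • x = 0 → α x = 0 → β x = 0 → EigenAt (p * M') S a x →
        p • t = 0 → α t = 0 → β t = 0 → EigenAt (p * M') S a t →
        (∀ σ ∈ A.inertiaSubgroupIn ℚ, ∀ c : ℕ, CycloAt p σ c → σ • t = c • t) →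
        (∀ σ ∈ A.inertiaSubgroupIn ℚ, ∃ n : ℕ, σ • x = x + n • t) →
        (∀ σ : GQ, PeuFixes A p σ → σ • x = x) → x ∈ 𝓕)

/-- Local structure of `E[p]` at `A` in the ordinary case: the line `⟨t⟩` and peu ramifiée. -/
def ELOCOrdAt (E : WeierstrassCurve ℚ) (p : ℕ)
    (A : ValuationSubring (AlgebraicClosure ℚ)) : Prop :=
  ∃ t : ETorsion E p,
    (∀ σ ∈ A.inertiaSubgroupIn ℚ, ∀ c : ℕ, CycloAt p σ c → σ • t = c • t) ∧
    (∀ x : ETorsion E p, ∀ σ ∈ A.inertiaSubgroupIn ℚ, ∃ n : ℕ, σ • x = x + n • t) ∧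
    (∀ x : ETorsion E p, ∀ σ : GQ, PeuFixes A p σ → σ • x = x)

/-- (ELOC-ord, good reduction)  `W` good at `p` with ordinary inertia action: line + peu. -/
def ELOCOrdGoodStatement : Prop :=
  ∀ (W : WeierstrassCurve ℤ) (p : ℕ), W.Δ ≠ 0 → p.Prime → p ≠ 2 → W.IsGoodPrimeFor p →
    ∀ A : ValuationSubring (AlgebraicClosure ℚ), A.LiesOverPrime p →
    OrdinaryInertiaAt (W.map (Int.castRingHom ℚ)) p A →
    ELOCOrdAt (W.map (Int.castRingHom ℚ)) p A

/-- (ELOC-ord, Frey curve with `p ∣ abc`: Tate curve with `p ∣ v_p(Δ)`)  line + peu. -/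
def ELOCOrdFreyStatement : Prop :=
  ∀ (P : FreyPackage), (P.p : ℤ) ∣ P.a * P.b * P.c →
    ∀ A : ValuationSubring (AlgebraicClosure ℚ), A.LiesOverPrime P.p →
    ELOCOrdAt P.freyCurve P.p A

/-- (NMT-W)  an irreducible `W[p]` is not of multiplicative type at `p` (`det = χ`). -/
def NotMultTypeWStatement : Prop :=
  ∀ (W : WeierstrassCurve ℤ) (p : ℕ), W.Δ ≠ 0 → p.Prime → p ≠ 2 → W.ModRepIsIrreducible p →
    ∀ A : ValuationSubring (AlgebraicClosure ℚ), A.LiesOverPrime p →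
    ¬ ∀ σ ∈ A.inertiaSubgroupIn ℚ, ∀ c : ℕ, CycloAt p σ c →
      ∀ x : ETorsion (W.map (Int.castRingHom ℚ)) p, σ • x = c • x

/-- (NE-W)  the eigensystem of an irreducible `W[p]` is not Eisenstein. -/
def NonEisWStatement : Prop :=
  ∀ (W : WeierstrassCurve ℤ) (p : ℕ), W.Δ ≠ 0 → p.Prime → p ≠ 2 → W.ModRepIsIrreducible p →
    NonEisAway p (fun ℓ => W.apOfModel ℓ)

/-- WP is a consequence of (S1) + (S2). -/
theorem newKernel_of_filtration (hF : AtPFiltrationStatement) :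
    NewKernelStatement := by
  intro p M' _ _ hp hp2 hpM'
  obtain ⟨S₀, α, β, hdeg, hA'⟩ := hF p M' hp hp2 hpM'
  refine ⟨S₀, α, β, hdeg, ?_⟩
  intro A hA σ hσ c hc x hpx hαx hβx
  obtain ⟨𝓕, 𝒮, h1, h2, -, -⟩ := hA' A hA
  have hy : σ • x - x ∈ 𝒮 := h1 x hpx σ hσ
  have hpy : p • (σ • x - x) = 0 := by
    rw [nsmul_sub, smul_comm p σ x, hpx, sub_zero]
    exact smul_zero (A := JZero (p * M')) σ
  have hαy : α (σ • x - x) = 0 := by
    rw [map_sub, hdeg.galois_left, hαx, sub_zero]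
    exact smul_zero (A := JZero M') σ
  have hβy : β (σ • x - x) = 0 := by
    rw [map_sub, hdeg.galois_right, hβx, sub_zero]
    exact smul_zero (A := JZero M') σ
  have h := h2 _ hy hpy hαy hβy σ hσ c hc
  rw [smul_sub, nsmul_sub] at h
  have h' : σ • σ • x = c • σ • x - c • x + σ • x := by
    rw [← h]; abel
  rw [h', add_nsmul, one_nsmul]; abel

section Core2

variable {E : WeierstrassCurve ℚ} {p M' : ℕ} [NeZero M'] [NeZero (p * M')]

/-- Level 2 core: the ordinary case from the filtration package at `A`, the local structure of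
`E[p]` and NMT (any curve). -/
theorem lowered_of_filtration {S : Finset ℕ} {a : ℕ → ℤ}
    {A : ValuationSubring (AlgebraicClosure ℚ)}
    {S₀ : Finset ℕ} {α β : JZero (p * M') →+ JZero M'} (hdeg : IsDegPair p M' S₀ α β)
    {𝓕 𝒮 : AddSubgroup (JZero (p * M'))}
    (h2 : ∀ x ∈ 𝒮, p • x = 0 → α x = 0 → β x = 0 →
        ∀ σ ∈ A.inertiaSubgroupIn ℚ, ∀ c : ℕ, CycloAt p σ c → σ • x = c • x)
    (h3 : ∀ (S : Finset ℕ) (a : ℕ → ℤ), ∀ x ∈ 𝓕, x ∉ 𝒮 → p • x = 0 → α x = 0 → β x = 0 →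
        EigenAt (p * M') S a x → Lowered M' p S a)
    (h4 : ∀ (S : Finset ℕ) (a : ℕ → ℤ), NonEisAway p a → ∀ x t : JZero (p * M'),
        p • x = 0 → α x = 0 → β x = 0 → EigenAt (p * M') S a x →
        p • t = 0 → α t = 0 → β t = 0 → EigenAt (p * M') S a t →
        (∀ σ ∈ A.inertiaSubgroupIn ℚ, ∀ c : ℕ, CycloAt p σ c → σ • t = c • t) →
        (∀ σ ∈ A.inertiaSubgroupIn ℚ, ∃ n : ℕ, σ • x = x + n • t) →
        (∀ σ : GQ, PeuFixes A p σ → σ • x = x) → x ∈ 𝓕)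
    (hEL : ELOCOrdAt E p A)
    (hNMT : ¬ ∀ σ ∈ A.inertiaSubgroupIn ℚ, ∀ c : ℕ, CycloAt p σ c →
      ∀ x : ETorsion E p, σ • x = c • x)
    (hNE : NonEisAway p a)
    (hemb : EEmbedsIn E p (p * M') S a) : Lowered M' p S a := by
  obtain ⟨ι, hinj, hgal, hT⟩ := hemb
  by_cases h : ∃ x, α (ι x) ≠ 0 ∨ β (ι x) ≠ 0
  · exact ⟨S ∪ S₀, Finset.subset_union_left, Or.inl (occursIn_of_not_new hdeg ι hT h)⟩
  have hnew : ∀ x, α (ι x) = 0 ∧ β (ι x) = 0 := by
    intro x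
    by_contra hx
    apply h
    refine ⟨x, ?_⟩
    by_cases h1 : α (ι x) = 0
    · exact Or.inr (fun h2 => hx ⟨h1, h2⟩)
    · exact Or.inl h1
  have heig : ∀ x, EigenAt (p * M') S a (ι x) := fun x ℓ hℓ => hT ℓ hℓ x
  obtain ⟨t, ht, hxt, hpeu⟩ := hEL
  have hF : ∀ x, ι x ∈ 𝓕 := by
    intro x
    refine h4 S a hNE (ι x) (ι t) (nsmul_emb_eq_zero ι x) (hnew x).1 (hnew x).2 (heig x)
      (nsmul_emb_eq_zero ι t) (hnew t).1 (hnew t).2 (heig t) ?_ ?_ ?_
    · intro σ hσ c hc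
      rw [← hgal, ht σ hσ c hc, map_nsmul]
    · intro σ hσ
      obtain ⟨n, hn⟩ := hxt x σ hσ
      exact ⟨n, by rw [← hgal, hn, map_add, map_nsmul]⟩
    · intro σ hσ
      rw [← hgal, hpeu x σ hσ]
  by_cases hS : ∃ x, ι x ∉ 𝒮
  · obtain ⟨x, hx⟩ := hS
    exact h3 S a (ι x) (hF x) hx (nsmul_emb_eq_zero ι x) (hnew x).1 (hnew x).2 (heig x)
  · exfalso
    apply hNMT
    intro σ hσ c hc x
    apply hinj
    rw [hgal, map_nsmul]
    have hx : ι x ∈ 𝒮 := by
      by_contra hx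
      exact hS ⟨x, hx⟩
    exact h2 (ι x) hx (nsmul_emb_eq_zero ι x) (hnew x).1 (hnew x).2 σ hσ c hc

end Core2

/-- **Level 2 glue, ordinary case, S40 form.** -/
theorem ordCaseGood_of (hF : AtPFiltrationStatement) (hEL : ELOCOrdGoodStatement)
    (hNMT : NotMultTypeWStatement) (hNE : NonEisWStatement) : OrdCaseGoodStatement := by
  intro W p M' _ _ hΔ hp hp2 hpM' hgood hirr A hA hH S hemb
  obtain ⟨S₀, α, β, hdeg, hA'⟩ := hF p M' hp hp2 hpM'
  obtain ⟨𝓕, 𝒮, -, h2, h3, h4⟩ := hA' A hA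
  exact lowered_of_filtration hdeg h2 h3 h4 (hEL W p hΔ hp hp2 hgood A hA hH)
    (hNMT W p hΔ hp hp2 hirr A hA) (hNE W p hΔ hp hp2 hirr) hemb

/-- **Level 2 glue, ordinary case, S44 form** (NMT is `Spec.NotMultiplicativeTypeStatement`,
landed). -/
theorem ordCaseFrey_of (hF : AtPFiltrationStatement) (hEL : ELOCOrdFreyStatement)
    (hNMT : NotMultiplicativeTypeStatement) : OrdCaseFreyStatement := by
  intro P M' _ _ hpM' hpabc hirr A hA hH S a hNE hemb
  have hp2 : P.p ≠ 2 := by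
    have := P.hp5
    omega
  obtain ⟨S₀, α, β, hdeg, hA'⟩ := hF P.p M' P.pp hp2 hpM'
  obtain ⟨𝓕, 𝒮, -, h2, h3, h4⟩ := hA' A hA
  exact lowered_of_filtration hdeg h2 h3 h4 (hEL P hpabc A hA) (hNMT P A hA) hNE hemb

/-- **Total glue, S40 form**: the wall from the filtration package and the local theory. -/
theorem wallGood_of_filtration (hPl : PlacesStatement) (hF : AtPFiltrationStatement)
    (hEL : ELOCOrdGoodStatement) (hNMT : NotMultTypeWStatement) (hNE : NonEisWStatement) :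
    WallGoodStatement :=
  wallGood_of hPl (newKernel_of_filtration hF) (ordCaseGood_of hF hEL hNMT hNE)

/-- **Total glue, S44 form.** -/
theorem wallFrey_of_filtration (hPl : PlacesStatement) (hF : AtPFiltrationStatement)
    (hEL : ELOCOrdFreyStatement) (hNMT : NotMultiplicativeTypeStatement) :
    WallFreyStatement :=
  wallFrey_of hPl (newKernel_of_filtration hF) (ordCaseFrey_of hF hEL hNMT)

/-! ## Top glue: the frozen statements from the walls in `Lowered` form -/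

/-- (M4c-type converse of R3S, row S29)  a congruent eigenform of level `M` makes the
eigensystem occur in `J₀(M)[p]`.  Only needed to land in the `OccursIn` shape of `Spec3`. -/
def OccursOfEigenStatement : Prop :=
  ∀ (M p : ℕ) [NeZero M], p.Prime → ∀ (S : Finset ℕ) (a : ℕ → ℤ), EigenAway M p S a →
    ∃ S' : Finset ℕ, S ⊆ S' ∧ OccursIn M p S' a

/-- The wall in the exact shape `Spec.AtPOccursGoodStatement` of `Spec3.lean`. -/
theorem atPOccursGood_of (hConv : OccursOfEigenStatement) (hWall : WallGoodStatement) :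
    AtPOccursGoodStatement := by
  intro W p M' _ _ hΔ hp hp2 hpM' hgood hirr S hemb
  obtain ⟨S', hSS', hocc | heig⟩ := hWall W p M' hΔ hp hp2 hpM' hgood hirr S hemb
  · exact ⟨S', hSS', hocc⟩
  · obtain ⟨S'', hS'', hocc⟩ := hConv M' p hp S' _ heig
    exact ⟨S'', hSS'.trans hS'', hocc⟩

/-- Conversely the `Spec3` wall gives the `Lowered` wall. -/
theorem wallGood_of_atPOccursGood (h : AtPOccursGoodStatement) : WallGoodStatement := by
  intro W p M' _ _ hΔ hp hp2 hpM' hgood hirr S hemb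
  obtain ⟨S', hSS', hocc⟩ := h W p M' hΔ hp hp2 hpM' hgood hirr S hemb
  exact ⟨S', hSS', Or.inl hocc⟩

/-- `Lowered` gives a congruent eigenform (R3S turns `OccursIn` into an eigenform). -/
theorem eigenAway_of_lowered (hR3 : EigenformOfOccursAwayStatement) {M' p : ℕ} [NeZero M']
    (hp : p.Prime) {S : Finset ℕ} {a : ℕ → ℤ} (h : Lowered M' p S a) :
    ∃ S' : Finset ℕ, EigenAway M' p S' a := by
  obtain ⟨S', -, hocc | heig⟩ := h
  · exact ⟨_, exists_eigenform_of_occursIn hR3 hp hocc⟩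
  · exact ⟨S', heig⟩

/-- **S40 from the wall in `Lowered` form**: `BLR-W + WALL + R3S + R3'-W ⇒ S40`. -/
theorem S40_of_wall (hE : EmbedWStatement) (hWall : WallGoodStatement)
    (hR3 : EigenformOfOccursAwayStatement) (hR3' : AlmostAllToWitnessWStatement) :
    S40Statement := by
  intro W hΔ p hp hp2 hgood hirr M hM hpM hp2M hmod
  obtain ⟨M', rfl⟩ := hpM
  have hM'pos : 0 < M' := by
    rcases Nat.eq_zero_or_pos M' with h0 | h0
    · subst h0; simp at hM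
    · exact h0
  rw [Nat.mul_div_cancel_left M' hp.pos]
  have hpM' : ¬ p ∣ M' := by
    rintro ⟨k, rfl⟩
    exact hp2M ⟨k, by ring⟩
  haveI : NeZero M' := ⟨hM'pos.ne'⟩
  haveI : NeZero (p * M') := ⟨hM.ne'⟩
  obtain ⟨f, 𝔪, hwit⟩ := hmod
  obtain ⟨S, hemb⟩ := hE W p (p * M') hΔ hp hp2 hirr f 𝔪 hwit
  obtain ⟨S', g, 𝔪', hg, hmax, hpm, hc⟩ :=
    eigenAway_of_lowered hR3 hp (hWall W p M' hΔ hp hp2 hpM' hgood hirr S hemb)
  exact ⟨g, 𝔪', hR3' W p M' hΔ hp hp2 hM'pos hirr g 𝔪' _ hg hmax hpm hc⟩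

/-- **S44 from the wall in `Lowered` form**:
`BLR + WALL + NE + R3S + R3' ⇒ S44` (NE = `Spec.NonEisensteinStatement`, landed). -/
theorem S44_of_wall (hE : EmbedStatement) (hWall : WallFreyStatement)
    (hNE : NonEisensteinStatement)
    (hR3 : EigenformOfOccursAwayStatement) (hR3' : AlmostAllToWitnessStatement) :
    S44Statement := by
  intro P N hcond hpN hirr hmod
  have hsq : ¬ P.p ^ 2 ∣ N := hcond.sq_not_dvd P.pp
  have hpabc := hcond.p_dvd_abc hpN
  have hNpos := hcond.pos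
  obtain ⟨M', rfl⟩ := hpN
  have hM'pos : 0 < M' := by
    rcases Nat.eq_zero_or_pos M' with h0 | h0
    · subst h0; simp at hNpos
    · exact h0
  have hpM' : ¬ P.p ∣ M' := by
    rintro ⟨k, rfl⟩
    exact hsq ⟨k, by ring⟩
  haveI : NeZero M' := ⟨hM'pos.ne'⟩
  haveI : NeZero (P.p * M') := ⟨hNpos.ne'⟩
  obtain ⟨f, W, 𝔪, hwit⟩ := hmod
  have hwit' : P.IsCongruentWitness (P.p * M') f W 𝔪 := hwit
  obtain ⟨S, hemb⟩ := hE P (P.p * M') hirr f W 𝔪 hwit'
  have hNE' : NonEisAway P.p (fun ℓ => W.apOfModel ℓ) := by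
    intro S₁
    obtain ⟨ℓ, hℓ, hℓS, -, hne⟩ := hNE P W hwit.2.1 hirr S₁
    exact ⟨ℓ, hℓ, hℓS, hne⟩
  obtain ⟨S', g, 𝔪', hg, hmax, hp, hc⟩ :=
    eigenAway_of_lowered hR3 P.pp (hWall P M' hpM' hpabc hirr S _ hNE' hemb)
  exact ⟨M', Dvd.intro_left _ rfl, hpM', g, W, 𝔪',
    hR3' P M' hM'pos g W 𝔪' _ hg hwit.2.1 hmax hp hc⟩

end Fermat.Agent.Ribet.H944.Wall
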