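import Fermat.Agent.A2.IF.H429.IF
import Fermat.Agent.A2.IF.H9.InertiaClosed
import Fermat.Agent.Ribet.H785.PeuCore

/-!
# Row 38, WALL-p, (S4) CORE-OUT: the TAME LEVEL `E₁ = ℚ̄^{I}(ζ_p) = ℚ̄^{I₁}`  (helper944)

`A` a valuation subring of `ℚ̄` over `p`, `I = A.inertiaSubgroupIn ℚ`, `ζ` a primitive `p`-th root
of unity, `I₁ = {τ ∈ I | τ|μ_p = 1}` (`H785.inertiaOne`), `K₁ = ℚ̄^{I₁}` (`H785.InK1`).

* `tameLevel A ζ`            : the good level `A2.IF.H429.level A {ζ} = ℚ̄^I(ζ)`;
* `goodField_tameLevel`      : it is a good level (`A2.GoodField`);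
* `mem_tameLevel_iff`        : `x ∈ tameLevel A ζ ↔ H785.InK1 A p x` (`E₁ = K₁`: everything which is
                               fixed by `I₁` lives at the tame level);
* `zetaR`, `isPrimitiveRoot_zetaR` : `ζ` as an element of `R = RE A E₁`;
* `exists_unit_lam_pow`      : `(ζ - 1) ^ (p - 1) = p · ε`, `ε ∈ Rˣ` (any domain);
* `associated_natCast_pow`   : `p ~ w ^ (p - 1)` for EVERY uniformiser `w` of `R`
                               (ramification index `e = p - 1`, prime to `p`);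
* `irreducible_lam`          : `λ = ζ - 1` is a uniformiser of `R`;
* `coprime_unitExp`          : `12 (p - 1)` is prime to `p` for `p ≥ 5` (exponent of the unit pair
                               `D · D' = p ^ 12` at the tame level).
-/

set_option autoImplicit false
set_option linter.unusedSectionVars false
set_option linter.style.haveILetI false

noncomputable section

namespace Fermat.Agent.Ribet.H944.Tame

open Fermat.Agent.A2 Fermat.Agent.A2.IF.H429 Fermat.Agent.Ribet.H785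
open Fermat.Agent.S55.Bridge

attribute [local instance] isAlgebraic_Qbar isGalois_Qbar

variable (A : ValuationSubring Qb) {p : ℕ}

/-- The tame level `E₁ = ℚ̄^{I}(ζ)`. -/
def tameLevel (ζ : Qb) : IntermediateField ℚ Qb := level A {ζ}

theorem goodField_tameLevel (hp : p.Prime) (hA : A.LiesOverPrime p) (ζ : Qb) :
    GoodField A (tameLevel A ζ) :=
  goodField_level p hp A hA {ζ}

theorem zeta_mem_tameLevel (ζ : Qb) : ζ ∈ tameLevel A ζ :=
  mem_level_of_mem A {ζ} (Finset.mem_singleton_self ζ)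

theorem inertiaField_le_tameLevel (ζ : Qb) : inertiaField A ≤ tameLevel A ζ :=
  inertiaField_le_level A {ζ}

/-- Everything fixed by `I₁` lies at the tame level. -/
theorem mem_tameLevel_of_inK1 {ζ : Qb} (hζ : IsPrimitiveRoot ζ p) (hp0 : p ≠ 0) {x : Qb}
    (hx : InK1 A p x) : x ∈ tameLevel A ζ := by
  haveI : NeZero p := ⟨hp0⟩
  apply mem_of_fixed
  intro σ hσ
  have hσI : σ ∈ A.inertiaSubgroupIn ℚ := by
    apply Fermat.Agent.A2.IF.H9.mem_inertiaSubgroupIn_of_fixes_fixedField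
    intro y hy
    exact hσ y (inertiaField_le_tameLevel A ζ hy)
  refine hx σ hσI (fun ζ' hζ' => ?_)
  obtain ⟨k, -, rfl⟩ := hζ.eq_pow_of_pow_eq_one hζ'
  rw [pow_one, map_pow, hσ ζ (zeta_mem_tameLevel A ζ)]

/-- The tame level is fixed by `I₁`. -/
theorem inK1_of_mem_tameLevel {ζ : Qb} (hζp : ζ ^ p = 1) {x : Qb}
    (hx : x ∈ tameLevel A ζ) : InK1 A p x := by
  intro τ hτ hτ1
  refine level_fixed A {ζ} τ (fun e he => (mem_inertiaField_iff A).mp he τ hτ) ?_ hx
  intro z hz
  have hz1 : z ^ p = 1 := by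
    rw [mem_conjSet_iff, Finset.prod_singleton] at hz
    have hdvd : minpoly ℚ ζ ∣ (Polynomial.X ^ p - 1 : Polynomial ℚ) :=
      minpoly.dvd ℚ ζ (by simp [hζp])
    obtain ⟨q, hq⟩ := hdvd
    have h1 := congrArg (Polynomial.aeval z) hq
    rw [map_mul, hz, zero_mul] at h1
    simpa [sub_eq_zero] using h1
  have h2 := hτ1 z hz1
  rwa [pow_one] at h2

/-- **`E₁ = K₁`.** -/
theorem mem_tameLevel_iff {ζ : Qb} (hζ : IsPrimitiveRoot ζ p) (hp0 : p ≠ 0) (x : Qb) :
    x ∈ tameLevel A ζ ↔ InK1 A p x :=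
  ⟨inK1_of_mem_tameLevel A hζ.pow_eq_one, mem_tameLevel_of_inK1 A hζ hp0⟩

/-! ## The cyclotomic uniformiser -/

/-- Roots of unity lie in every valuation subring. -/
theorem mem_of_pow_eq_one {ζ : Qb} (hp0 : p ≠ 0) (hζp : ζ ^ p = 1) : ζ ∈ A := by
  rcases A.mem_or_inv_mem ζ with h | h
  · exact h
  · have h1 : ζ = ζ⁻¹ ^ (p - 1) := by
      have hζ0 : ζ ≠ 0 := by
        rintro rfl
        rw [zero_pow hp0] at hζp
        exact zero_ne_one hζp
      have h2 : ζ * ζ ^ (p - 1) = 1 := by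
        rw [← pow_succ', Nat.sub_add_cancel (Nat.pos_of_ne_zero hp0), hζp]
      rw [inv_pow]
      exact eq_inv_of_mul_eq_one_left h2
    rw [h1]
    exact pow_mem h _

/-- `ζ` as an element of `R = RE A E₁`. -/
def zetaR {ζ : Qb} (hp0 : p ≠ 0) (hζp : ζ ^ p = 1) : RE A (tameLevel A ζ) :=
  ⟨⟨ζ, zeta_mem_tameLevel A ζ⟩, mem_of_pow_eq_one A hp0 hζp⟩

theorem coe_zetaR {ζ : Qb} (hp0 : p ≠ 0) (hζp : ζ ^ p = 1) :
    (((zetaR A hp0 hζp : RE A (tameLevel A ζ)) : tameLevel A ζ) : Qb) = ζ := rfl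

theorem coe_injective (E : IntermediateField ℚ Qb) :
    Function.Injective (fun x : RE A E => (((x : E)) : Qb)) := by
  intro x y h
  exact Subtype.ext (Subtype.ext h)

theorem isPrimitiveRoot_zetaR {ζ : Qb} (hζ : IsPrimitiveRoot ζ p) (hp0 : p ≠ 0) :
    IsPrimitiveRoot (zetaR A hp0 hζ.pow_eq_one) p := by
  let φ : RE A (tameLevel A ζ) →+* Qb :=
    (algebraMap (tameLevel A ζ) Qb).comp (RE A (tameLevel A ζ)).subtype
  have hφ : Function.Injective φ := fun x y h => coe_injective A _ h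
  have h1 : IsPrimitiveRoot (φ (zetaR A hp0 hζ.pow_eq_one)) p := hζ
  exact IsPrimitiveRoot.of_map_of_injective h1 hφ

section Domain

variable {R : Type*} [CommRing R] [IsDomain R]

theorem associated_prod_range_pow (f : ℕ → R) (a : R) (n : ℕ)
    (h : ∀ k < n, Associated (f k) a) : Associated (∏ k ∈ Finset.range n, f k) (a ^ n) := by
  induction n with
  | zero => simp
  | succ n ih =>
    rw [Finset.prod_range_succ, pow_succ]
    exact (ih fun k hk => h k (Nat.lt_succ_of_lt hk)).mul_mul (h n (Nat.lt_succ_self n))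

/-- `p ~ (ζ - 1) ^ (p - 1)` in every domain containing a primitive `p`-th root of unity. -/
theorem associated_natCast_lam_pow (hp : p.Prime) {ζ : R} (hζ : IsPrimitiveRoot ζ p) :
    Associated (p : R) ((ζ - 1) ^ (p - 1)) := by
  have hp1 : p - 1 + 1 = p := Nat.sub_add_cancel hp.pos
  have hζ' : IsPrimitiveRoot ζ (p - 1 + 1) := by rw [hp1]; exact hζ
  have h1 := IsPrimitiveRoot.prod_one_sub_pow_eq_order hζ'
  have h2 : ((p - 1 : ℕ) : R) + 1 = (p : R) := by
    have := congrArg (Nat.cast : ℕ → R) hp1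
    push_cast at this
    exact this
  rw [h2] at h1
  rw [← h1]
  refine associated_prod_range_pow _ _ _ fun k hk => ?_
  have hcop : (k + 1).Coprime p :=
    (Nat.coprime_of_lt_prime (Nat.succ_ne_zero k) (by omega) hp).symm
  have h3 := (hζ.associated_sub_one_pow_sub_one_of_coprime hcop).symm
  have h4 : (1 : R) - ζ ^ (k + 1) = -(ζ ^ (k + 1) - 1) := by ring
  rw [h4]
  exact (Associated.neg_left (Associated.refl _)).trans h3

/-- `(ζ - 1) ^ (p - 1) = p · ε` with `ε` a unit. -/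
theorem exists_unit_lam_pow (hp : p.Prime) {ζ : R} (hζ : IsPrimitiveRoot ζ p) :
    ∃ ε : R, IsUnit ε ∧ (ζ - 1) ^ (p - 1) = (p : R) * ε := by
  obtain ⟨u, hu⟩ := associated_natCast_lam_pow hp hζ
  exact ⟨u, u.isUnit, hu.symm⟩

end Domain

/-! ## The ramification index of the tame level is `p - 1` -/

section Ram

variable {A}

theorem valuation_coe_unit (E : IntermediateField ℚ Qb) (u : (RE A E)ˣ) :
    A.valuation ((((u : RE A E) : E)) : Qb) = 1 := by
  have h1 : ((((u : RE A E) : E)) : Qb) ∈ A := (u : RE A E).2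
  have h2 : (((((u⁻¹ : (RE A E)ˣ) : RE A E) : E)) : Qb) ∈ A := ((u⁻¹ : (RE A E)ˣ) : RE A E).2
  have h3 : ((((u : RE A E) : E)) : Qb) * (((((u⁻¹ : (RE A E)ˣ) : RE A E) : E)) : Qb) = 1 := by
    have h0 : (u : RE A E) * ((u⁻¹ : (RE A E)ˣ) : RE A E) = 1 := u.mul_inv
    exact congrArg (fun x : RE A E => (((x : E)) : Qb)) h0
  have h4 := (A.valuation_le_one_iff _).mpr h1
  have h5 := (A.valuation_le_one_iff _).mpr h2
  have h6 : A.valuation ((((u : RE A E) : E)) : Qb) *
      A.valuation (((((u⁻¹ : (RE A E)ˣ) : RE A E) : E)) : Qb) = 1 := by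
    rw [← map_mul, h3, map_one]
  refine le_antisymm h4 ?_
  by_contra hlt
  push Not at hlt
  have h7 : A.valuation ((((u : RE A E) : E)) : Qb) *
      A.valuation (((((u⁻¹ : (RE A E)ˣ) : RE A E) : E)) : Qb) < 1 :=
    mul_lt_one_of_lt_of_le hlt h5
  exact absurd h6 (ne_of_lt h7)

/-- **Ramification index `p - 1`.**  At the tame level `p ~ w ^ (p - 1)` for every uniformiser
`w`, and `ζ - 1` is a uniformiser. -/
theorem ram_tameLevel (hp : p.Prime) (hA : A.LiesOverPrime p) {ζ : Qb}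
    (hζ : IsPrimitiveRoot ζ p) (w : RE A (tameLevel A ζ)) (hw : Irreducible w) :
    Associated ((p : ℕ) : RE A (tameLevel A ζ)) (w ^ (p - 1)) ∧
      Associated (zetaR A hp.ne_zero hζ.pow_eq_one - 1) w := by
  haveI : IsDiscreteValuationRing (RE A (tameLevel A ζ)) :=
    (goodField_tameLevel A hp hA ζ).dvr
  have hw0 : w ≠ 0 := hw.ne_zero
  have hwu : ¬ IsUnit w := hw.not_isUnit
  set z : RE A (tameLevel A ζ) := zetaR A hp.ne_zero hζ.pow_eq_one with hz
  have hzp : IsPrimitiveRoot z p := isPrimitiveRoot_zetaR A hζ hp.ne_zero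
  have hp0R : ((p : ℕ) : RE A (tameLevel A ζ)) ≠ 0 := by
    intro h
    have := congrArg (fun x : RE A (tameLevel A ζ) => (((x : tameLevel A ζ)) : Qb)) h
    simp only [ZeroMemClass.coe_zero] at this
    have h2 : ((p : ℕ) : Qb) = 0 := by simpa using this
    exact hp.ne_zero (by exact_mod_cast h2)
  have hl0 : z - 1 ≠ 0 := sub_ne_zero.mpr (hzp.ne_one hp.one_lt)
  obtain ⟨e, he⟩ := IsDiscreteValuationRing.associated_pow_irreducible hp0R hw
  obtain ⟨a, ha⟩ := IsDiscreteValuationRing.associated_pow_irreducible hl0 hw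
  -- `a (p - 1) = e`
  have h1 : Associated (w ^ e) (w ^ (a * (p - 1))) := by
    rw [pow_mul]
    exact he.symm.trans ((associated_natCast_lam_pow hp hzp).trans (ha.pow_pow))
  have hea : e = a * (p - 1) := pow_associated_inj hw0 hwu h1
  -- `a ≠ 0`
  have hpmax : ((p : ℕ) : RE A (tameLevel A ζ)) ∈
      IsLocalRing.maximalIdeal (RE A (tameLevel A ζ)) := by
    rw [IsLocalRing.mem_maximalIdeal, mem_nonunits_iff]
    intro hu
    obtain ⟨u, hu⟩ := hu
    have h2 := valuation_coe_unit (A := A) (tameLevel A ζ) u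
    rw [hu] at h2
    have h3 : A.valuation ((p : ℕ) : Qb) < 1 := val_prime_lt_one A hA
    have h4 : (((((p : ℕ) : RE A (tameLevel A ζ)) : tameLevel A ζ)) : Qb) = ((p : ℕ) : Qb) := by
      simp
    rw [h4] at h2
    exact absurd h2 (ne_of_lt h3)
  have hpu : ¬ IsUnit ((p : ℕ) : RE A (tameLevel A ζ)) := by
    rwa [IsLocalRing.mem_maximalIdeal, mem_nonunits_iff] at hpmax
  have he0 : e ≠ 0 := by
    rintro rfl
    rw [pow_zero] at he
    exact hpu (he.symm.isUnit isUnit_one)
  have ha0 : a ≠ 0 := by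
    rintro rfl
    rw [zero_mul] at hea
    exact he0 hea
  -- the valuation bound `e < p`
  have hwK : InK1 A p (((w : tameLevel A ζ)) : Qb) :=
    inK1_of_mem_tameLevel A hζ.pow_eq_one (w : tameLevel A ζ).2
  have hwQ0 : (((w : tameLevel A ζ)) : Qb) ≠ 0 := by
    intro h
    apply hw0
    exact coe_injective A _ (by simpa using h)
  obtain ⟨d, k, hd, hdp, hdk⟩ := exists_val_pow_eq A hp hA hwK hwQ0
  have hvp : A.valuation ((p : ℕ) : Qb) = A.valuation ((((w : tameLevel A ζ)) : Qb)) ^ e := by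
    obtain ⟨u, hu⟩ := he
    have h2 := congrArg
      (fun x : RE A (tameLevel A ζ) => A.valuation ((((x : tameLevel A ζ)) : Qb))) hu
    simp only [MulMemClass.coe_mul, map_mul, SubmonoidClass.coe_pow, map_pow] at h2
    rw [valuation_coe_unit (A := A) (tameLevel A ζ) u, mul_one] at h2
    have h4 : (((((p : ℕ) : RE A (tameLevel A ζ)) : tameLevel A ζ)) : Qb) = ((p : ℕ) : Qb) := by
      simp
    rw [h4] at h2
    exact h2
  have hkey : A.valuation ((p : ℕ) : Qb) ^ ((d : ℕ) : ℤ) = A.valuation ((p : ℕ) : Qb) ^ (k * e) := by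
    rw [zpow_natCast, zpow_mul, ← hdk, zpow_natCast, hvp, ← pow_mul, ← pow_mul, mul_comm]
  have hde : ((d : ℕ) : ℤ) = k * e := zpow_val_prime_injective A hp hA hkey
  have hed : e ∣ d := by
    have : (e : ℤ) ∣ (d : ℤ) := ⟨k, by rw [hde]; ring⟩
    exact Int.natCast_dvd_natCast.mp this
  have hele : e ≤ d := Nat.le_of_dvd hd hed
  have ha1 : a = 1 := by
    have hp2 := hp.two_le
    have h5 : a * (p - 1) < p := by rw [← hea]; omega
    by_contra hne
    have h6 : 2 ≤ a := by omega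
    have h7 : 2 * (p - 1) ≤ a * (p - 1) := Nat.mul_le_mul_right _ h6
    omega
  subst ha1
  rw [one_mul] at hea
  rw [pow_one] at ha
  subst hea
  exact ⟨he, ha⟩

/-- `p ~ w ^ (p - 1)` for every uniformiser `w` of the tame level. -/
theorem associated_natCast_pow (hp : p.Prime) (hA : A.LiesOverPrime p) {ζ : Qb}
    (hζ : IsPrimitiveRoot ζ p) (w : RE A (tameLevel A ζ)) (hw : Irreducible w) :
    Associated ((p : ℕ) : RE A (tameLevel A ζ)) (w ^ (p - 1)) :=
  (ram_tameLevel hp hA hζ w hw).1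

/-- `λ = ζ - 1` is a uniformiser of the tame level. -/
theorem irreducible_lam (hp : p.Prime) (hA : A.LiesOverPrime p) {ζ : Qb}
    (hζ : IsPrimitiveRoot ζ p) :
    Irreducible (zetaR A hp.ne_zero hζ.pow_eq_one - 1) := by
  haveI : IsDiscreteValuationRing (RE A (tameLevel A ζ)) := (goodField_tameLevel A hp hA ζ).dvr
  obtain ⟨w, hw⟩ := IsDiscreteValuationRing.exists_irreducible (RE A (tameLevel A ζ))
  exact (ram_tameLevel hp hA hζ w hw).2.symm.irreducible hw

/-- The exponent `12 (p - 1)` of the unit pair `D · D' = p ^ 12 ~ w ^ (12 (p - 1))` at the tame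
level is prime to `p` for `p ≥ 5`. -/
theorem coprime_unitExp (hp : p.Prime) (hp5 : 5 ≤ p) : Nat.Coprime (12 * (p - 1)) p := by
  rw [Nat.coprime_comm, Nat.Prime.coprime_iff_not_dvd hp]
  intro h
  rcases (Nat.Prime.dvd_mul hp).mp h with h1 | h1
  · have h43 : p ∣ 4 * 3 := h1
    rcases (Nat.Prime.dvd_mul hp).mp h43 with h4 | h3
    · have := Nat.le_of_dvd (by norm_num) h4
      omega
    · have := Nat.le_of_dvd (by norm_num) h3
      omega
  · have := Nat.le_of_dvd (by omega) h1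
    omega

end Ram

end Fermat.Agent.Ribet.H944.Tame

end
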