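import Fermat.Agent.Ribet.Glue

/-!
# Row RIBET, piece P1p (helper944): Mazur–Ribet at `p`, Frey form — the pure-algebra reduction

* `MazurAtPStatement` : the WEAKEST form of the wall at `p` that the top glue needs
  ("an equivariant Hecke-eigen copy of `E[p]` in `J₀(pM')` forces the eigensystem to occur in
  `J₀(M')[p]`").
* `S44_of_mazurAtP`   : frozen S44 ⇐ BLR + `MazurAtPStatement` + R3 + R3'.
* `mazurAtP_of_package` : `MazurAtPStatement` ⇐ `Spec.AtPPackageStatement` + NMT + PL.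
* `S44_of_atP`        : the EXACT statement `Skeleton.S44_of_atP` of the row skeleton.
-/

set_option autoImplicit false

open WeierstrassCurve WeierstrassCurve.Affine WeierstrassCurve.Affine.Point
open CuspForm ModularFormClass UpperHalfPlane ModularCurve

namespace Fermat.Agent.Ribet.H944

open Spec

/-- **The wall at `p`, weakest sufficient form.**  `p ‖ pM'`, `p ∣ abc`: if `E[p]` (Frey curve)
embeds Galois-equivariantly into `J₀(pM')` as a Hecke eigenspace with eigenvalues `a` away from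
a finite set `S`, then the eigensystem `a` occurs in `J₀(M')[p]` away from a finite set. -/
def MazurAtPStatement : Prop :=
  ∀ (P : FreyPackage) (M' : ℕ) [NeZero M'] [NeZero (P.p * M')], ¬ P.p ∣ M' →
    (P.p : ℤ) ∣ P.a * P.b * P.c →
    ∀ (S : Finset ℕ) (a : ℕ → ℤ), FreyEmbedsIn P (P.p * M') S a →
      ∃ S' : Finset ℕ, OccursIn M' P.p S' a

/-- Frozen S44 from BLR, the wall at `p` in its weakest form, R3 and R3'. -/
theorem S44_of_mazurAtP (hE : EmbedStatement) (hM : MazurAtPStatement)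
    (hR3 : EigenformOfOccursStatement) (hR3' : AlmostAllToWitnessStatement) :
    S44Statement := by
  intro P N hcond hpN hirr hmod
  obtain ⟨f, W, 𝔪, hf, hW, hmax, hp, hc⟩ := hmod
  have hsq : ¬ P.p ^ 2 ∣ N := hcond.sq_not_dvd P.pp
  have hNpos : 0 < N := hcond.pos
  have hpabc : (P.p : ℤ) ∣ P.a * P.b * P.c := hcond.p_dvd_abc hpN
  obtain ⟨M', rfl⟩ := hpN
  have hM'pos : 0 < M' := by
    rcases Nat.eq_zero_or_pos M' with h0 | h0
    · subst h0; simp at hNpos
    · exact h0
  have hpM' : ¬ P.p ∣ M' := by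
    rintro ⟨k, rfl⟩
    exact hsq ⟨k, by ring⟩
  have : NeZero M' := ⟨hM'pos.ne'⟩
  have : NeZero (P.p * M') := ⟨hNpos.ne'⟩
  obtain ⟨S, hemb⟩ := hE P (P.p * M') hirr f W 𝔪 ⟨hf, hW, hmax, hp, hc⟩
  obtain ⟨S', hocc⟩ := hM P M' hpM' hpabc S _ hemb
  obtain ⟨g, 𝔪', hg, hmax', hp', hcong⟩ := hR3 M' P.p P.pp S' _ hocc
  obtain ⟨hg1, hW1, hmax1, hp1, hc1⟩ := hR3' P M' hM'pos g W 𝔪' S' hg hW hmax' hp' hcong
  exact ⟨M', Dvd.intro_left _ rfl, hpM', g, W, 𝔪', hg1, hW1, hmax1, hp1, hc1⟩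

/-- The wall at `p` in its weakest form from the at-`p` package of the row Spec. -/
theorem mazurAtP_of_package (hA : AtPPackageStatement)
    (hNMT : NotMultiplicativeTypeStatement) (hPl : PlacesStatement) :
    MazurAtPStatement := by
  intro P M' _ _ hpM' hpabc S a hemb
  obtain ⟨ι, hinj, hgal, hheck⟩ := hemb
  obtain ⟨A, hA', -⟩ := hPl P.p P.pp
  obtain ⟨𝒲, 𝓕, β, -, hF, hinert, hβ, hker, hflat⟩ := hA P M' hpM' hpabc A hA'
  have hιF : ∀ x, ι x ∈ 𝓕 := hflat ι hgal
  by_cases h0 : ∀ x, β ⟨ι x, hιF x⟩ = 0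
  · -- `E[p]` would be of multiplicative type at `p`
    exfalso
    apply hNMT P A hA'
    intro σ hσ c hc x
    apply hinj
    rw [hgal, map_nsmul]
    exact hinert σ hσ c hc (ι x) (hker ⟨ι x, hιF x⟩ (h0 x))
  · -- a nonzero coordinate of `β (ι x)` is an eigenvector at level `M'`
    push Not at h0
    obtain ⟨x, hx⟩ := h0
    set z : 𝓕 := ⟨ι x, hιF x⟩ with hz
    have hpz : P.p • β z = 0 := by
      rw [← map_nsmul]
      have : P.p • z = 0 := by
        apply Subtype.ext
        show P.p • ι x = 0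
        exact (hF (ι x) (hιF x))
      rw [this, _root_.map_zero]
    have hMp0 : M' * P.p ≠ 0 := Nat.mul_ne_zero (NeZero.ne M') P.pp.ne_zero
    have hTz : ∀ ℓ : Nat.Primes, (ℓ : ℕ) ∉ S ∪ (M' * P.p).primeFactors →
        (heckeOperatorBar M' ℓ (β z).1, heckeOperatorBar M' ℓ (β z).2) = a ℓ • β z := by
      intro ℓ hℓ
      rw [Finset.mem_union, not_or] at hℓ
      have hℓS : (ℓ : ℕ) ∉ S := hℓ.1
      have hℓM : ¬ (ℓ : ℕ) ∣ M' * P.p := fun hd =>
        hℓ.2 (Nat.mem_primeFactors.mpr ⟨ℓ.2, hd, hMp0⟩)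
      obtain ⟨hx', hβeq⟩ := hβ ℓ hℓM z
      rw [← hβeq, ← map_zsmul]
      congr 1
      apply Subtype.ext
      show heckeOperatorBar (P.p * M') ℓ (ι x) = a ℓ • ι x
      exact hheck ℓ hℓS x
    refine ⟨S ∪ (M' * P.p).primeFactors, ?_⟩
    by_cases h1 : (β z).1 = 0
    · have h2 : (β z).2 ≠ 0 := by
        intro h2
        exact hx (Prod.ext h1 h2)
      refine ⟨(β z).2, h2, ?_, fun ℓ hℓ => ?_⟩
      · have := congrArg Prod.snd hpz
        simpa using this
      · have := congrArg Prod.snd (hTz ℓ hℓ)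
        simpa using this
    · refine ⟨(β z).1, h1, ?_, fun ℓ hℓ => ?_⟩
      · have := congrArg Prod.fst hpz
        simpa using this
      · have := congrArg Prod.fst (hTz ℓ hℓ)
        simpa using this

/-- **(P1p)** the exact statement `Skeleton.S44_of_atP` of the row skeleton. -/
theorem S44_of_atP (hE : EmbedStatement) (hA : AtPPackageStatement)
    (hNMT : NotMultiplicativeTypeStatement) (hPl : PlacesStatement)
    (hR3 : EigenformOfOccursStatement) (hR3' : AlmostAllToWitnessStatement) :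
    S44Statement :=
  S44_of_mazurAtP hE (mazurAtP_of_package hA hNMT hPl) hR3 hR3'

end Fermat.Agent.Ribet.H944
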