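import Fermat.Agent.Ribet.H944.I2Spec
import Fermat.Agent.Ribet.H376.DlogEigen
import Fermat.Agent.S37.H340.KronBridge

/-!
# Row 38, WALL-p, I2 leaf DLOG-KNORM (helper944; core = helper376 `H376.coeff_eigen_of_kronNorm_eq`)

`dlogKnorm : I2.DlogKnormStatement` — adapter from the formal core of helper376
(`Ribet/H376/DlogKron.lean`, stated for `H400.kronNorm`) to `S37.H697.knorm`.
-/

set_option autoImplicit false
set_option linter.style.haveILetI false
set_option synthInstance.maxHeartbeats 400000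
set_option maxHeartbeats 1000000

noncomputable section

namespace Fermat.Agent.Ribet.H944.I2

open HahnSeries ModularCurve
open Fermat.Agent.S37 Fermat.Agent.S37.H697

theorem knorm_eq_kronNorm {R : Type*} [CommRing R] (ℓ : ℕ) [NeZero ℓ] (f : LaurentSeries R) :
    knorm ℓ f = H400.kronNorm ℓ f := by
  rw [H340.kronNorm_eq, knorm, kdet]

/-- **DLOG-KNORM.** -/
theorem dlogKnorm : DlogKnormStatement := by
  intro k _ _ p _ hp ℓ _ hℓ hℓp h G g a c h0 _ _ hg hK n
  have hℓk : (ℓ : k) ≠ 0 := by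
    intro h0
    have h1 : p ∣ ℓ := (CharP.cast_eq_zero_iff k p ℓ).mp h0
    exact hℓp ((Nat.prime_dvd_prime_iff_eq hp hℓ).mp h1).symm
  haveI : NeZero (ℓ : k) := ⟨hℓk⟩
  obtain ⟨ζ, hζ⟩ := HasEnoughRootsOfUnity.exists_primitiveRoot k ℓ
  rw [knorm_eq_kronNorm] at hK
  exact Fermat.Agent.Ribet.H376.coeff_eigen_of_kronNorm_eq p hp.ne_zero hζ hℓk h0 hg a c G hK n

end Fermat.Agent.Ribet.H944.I2

end
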