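import Fermat.Agent.Ribet.H944.I2Spec

/-!
# Row 38, WALL-p, I2 leaf HECKE-RED (helper944)

`heckeRed : I2.HeckeRedStatement` — if `r` is a reduction of `f` on `C∞`
(`f · U₂ = c · U₁`, `r · Ū₂ = Ū₁`), then `knorm ℓ r` is a reduction of `Nm_α(β f)`:
on `t`-expansions `Nm_α(β f) = knorm ℓ f` (`S37.H697.coe_normAlong_heckeBeta`), `knorm` is
multiplicative (`H340.kronMat_mul`), commutes with coefficient maps (`knorm_coeffMap`), and
`knorm ℓ c = c ^ (ℓ + 1)` on constants.
-/

set_option autoImplicit false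
set_option linter.style.haveILetI false
set_option linter.unusedSectionVars false
set_option synthInstance.maxHeartbeats 400000
set_option maxHeartbeats 1000000

noncomputable section

namespace Fermat.Agent.Ribet.H944.I2

open AlgebraicCurve ModularCurve HahnSeries
open Fermat.Agent.S24 Fermat.Agent.A2.H708 Fermat.Agent.A2.H528
open Fermat.Agent.Ribet.Spec Fermat.Agent.Ribet.H944.Wall Fermat.Agent.Ribet.H884
open Fermat.Agent.S37 Fermat.Agent.S37.H697

section Knorm

variable {R : Type*} [CommRing R] (ℓ : ℕ) [NeZero ℓ]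

theorem knorm_mul (f g : LaurentSeries R) : knorm ℓ (f * g) = knorm ℓ f * knorm ℓ g := by
  rw [knorm, knorm, knorm, kdet, kdet, kdet, H340.kronMat_mul, Matrix.det_mul, map_mul]
  ring

theorem knorm_one : knorm ℓ (1 : LaurentSeries R) = 1 := by
  rw [knorm, kdet, H340.kronMat_one, Matrix.det_one, map_one, one_mul]

theorem knorm_C (c : R) : knorm ℓ (HahnSeries.C c : LaurentSeries R) = HahnSeries.C (c ^ (ℓ + 1)) := by
  have h1 : H340.kronMat ℓ (HahnSeries.C c : LaurentSeries R) =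
      Matrix.scalar (Fin ℓ) (HahnSeries.C c : LaurentSeries R) := by
    have := H340.kronMat_qExpand ℓ (HahnSeries.C c : LaurentSeries R)
    rwa [qExpand_C] at this
  rw [knorm, kdet, h1, qExpand_C, Matrix.scalar_apply, Matrix.det_diagonal, Finset.prod_const,
    Finset.card_univ, Fintype.card_fin, ← pow_succ', ← map_pow]

theorem knorm_ne_zero {k : Type*} [Field k] {r : LaurentSeries k} (hr : r ≠ 0) :
    knorm ℓ r ≠ 0 := by
  intro h0
  have h1 : knorm ℓ r * knorm ℓ r⁻¹ = 1 := by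
    rw [← knorm_mul, mul_inv_cancel₀ hr, knorm_one]
  rw [h0, zero_mul] at h1
  exact zero_ne_one h1

end Knorm

/-- **HECKE-RED.** -/
theorem heckeRed : HeckeRedStatement := by
  intro N ℓ _ _ hℓ hℓN A f r hfr
  obtain ⟨c, U₁, U₂, hc, h1, h2, hfU, hr⟩ := hfr
  have hser : ((hNorm N ℓ f : FF N) : LaurentSeries Kbar) = knorm ℓ (f : LaurentSeries Kbar) :=
    coe_normAlong_heckeBeta N ℓ hℓ hℓN f
  have hred : ∀ U : LaurentSeries A, red A (knorm ℓ U) = knorm ℓ (red A U) :=
    fun U => (knorm_coeffMap ℓ _ U).symm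
  have hincl : ∀ U : LaurentSeries A, incl A (knorm ℓ U) = knorm ℓ (incl A U) :=
    fun U => (knorm_coeffMap ℓ _ U).symm
  refine ⟨c ^ (ℓ + 1), knorm ℓ U₁, knorm ℓ U₂, pow_ne_zero _ hc, ?_, ?_, ?_, ?_⟩
  · rw [hred]; exact knorm_ne_zero ℓ h1
  · rw [hred]; exact knorm_ne_zero ℓ h2
  · rw [hser, hincl, hincl, ← knorm_mul, hfU, knorm_mul]
    congr 1
    have e : ∀ d : Kbar, cst d = (HahnSeries.C d : LaurentSeries Kbar) := fun d => by
      show algebraMap Kbar (LaurentSeries Kbar) d = _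
      rw [algebraMap_laurentSeries_eq_single]
      rfl
    rw [e, e]
    exact knorm_C ℓ c
  · rw [hred, hred, ← knorm_mul, hr]

end Fermat.Agent.Ribet.H944.I2

end
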