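import Fermat.Agent.Ribet.H944.Closed
import Fermat.Agent.Ribet.H944.KumEig
import Fermat.Agent.Ribet.H944.HeckeRed
import Fermat.Agent.Ribet.H944.DlogEx
import Fermat.Agent.Ribet.H939.ResField
import Fermat.Agent.Ribet.H997.RedBasic

/-!
# Row 38, WALL-p, I2 = DLOG: `H884.DlogOutStatement` from FRICKE-HECKE alone (helper944)

All other leaves of `I2.dlogOut_of` are on main: CLOSED (`I2.finClosed`), RES (`H939.resField`),
REDEX / REDUNIQ (`H997.redExists`, `H997.redUnique`), KUMEIG (`I2.kumEig`), HECKE-RED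
(`I2.heckeRed`), DLOG-KNORM (`I2.dlogKnorm`, core helper376), DLOG-EX (`I2.dlogEx`).
-/

set_option autoImplicit false

namespace Fermat.Agent.Ribet.H944.I2

open Fermat.Agent.Ribet.H884

/-- **I2 = DLOG from FRICKE-HECKE.** -/
theorem dlogOut_of_frickeHecke (hFH : FrickeHeckeStatement) : DlogOutStatement :=
  dlogOut_of finClosed Fermat.Agent.Ribet.H939.resField Fermat.Agent.Ribet.H997.redExists
    Fermat.Agent.Ribet.H997.redUnique kumEig hFH heckeRed dlogKnorm dlogEx

end Fermat.Agent.Ribet.H944.I2
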