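import Fermat.Agent.Ribet.H944.DlogOut
import Fermat.Agent.Ribet.H376.HeckeFricke

/-!
# Row 38, WALL-p, I2 leaf FRICKE-HECKE and the closed leaf I2 = DLOG (helper944)

* `frickeHecke : I2.FrickeHeckeStatement` — adapter from helper376 `H376.wF_heckeNorm`
  (`Ribet/H376/HeckeFricke.lean`);
* **`dlogOut : H884.DlogOutStatement`** — UNCONDITIONAL.
-/

set_option autoImplicit false

noncomputable section

namespace Fermat.Agent.Ribet.H944.I2

open Fermat.Agent.Ribet.H884 Fermat.Agent.A2.H528

/-- **FRICKE-HECKE.** -/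
theorem frickeHecke : FrickeHeckeStatement := by
  intro N ℓ _ _ hℓ hℓN f
  exact (Fermat.Agent.Ribet.H376.wF_heckeNorm hℓ hℓN f).symm

/-- **I2 = DLOG, unconditional.** -/
theorem dlogOut : DlogOutStatement :=
  dlogOut_of_frickeHecke frickeHecke

end Fermat.Agent.Ribet.H944.I2

end
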