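import Fermat.Agent.Ribet.Spec2

/-!
# Row 38, S40 line (helper944): the chain in `W`-form

`S40` (good reduction at `p`) has the same shape as `S44`, with the Frey package replaced by an
arbitrary integral Weierstrass curve `W` with good reduction at `p` and irreducible `W[p]`:

  `S40 ⇐ BLR_W + WALL-p(W good at p) + R3S + R3'_W`.

This file freezes the three `W`-form interfaces as `Prop`s and proves the top glue.  The only
genuinely open input is the wall `GoodAtPOccursStatement` (board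
`origin/helper944:coord/RIBET-board-helper944.md`, §2).
-/

set_option autoImplicit false
set_option linter.style.haveILetI false

open WeierstrassCurve WeierstrassCurve.Affine WeierstrassCurve.Affine.Point
open CuspForm ModularFormClass UpperHalfPlane ModularCurve

namespace Fermat.Agent.Ribet.H944

open Fermat.Agent.Ribet.Spec

/-- `W[p]`: the `p`-torsion of `W_ℚ` over `ℚ̄`. -/
abbrev WTorsion (W : WeierstrassCurve ℤ) (p : ℕ) : Type :=
  Submodule.torsionBy ℤ ((W.map (Int.castRingHom ℚ))⁄(AlgebraicClosure ℚ)).Point p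

/-- A Galois- and Hecke-equivariant embedding of `W[p]` into `J₀(N)`, away from `S`. -/
def WEmbedsIn (W : WeierstrassCurve ℤ) (p N : ℕ) [NeZero N] (S : Finset ℕ) (a : ℕ → ℤ) :
    Prop :=
  ∃ ι : WTorsion W p →+ JZero N, Function.Injective ι ∧
    (∀ (σ : GQ) (x : WTorsion W p), ι (σ • x) = σ • ι x) ∧
    ∀ ℓ : Nat.Primes, (ℓ : ℕ) ∉ S → ∀ x : WTorsion W p,
      heckeOperatorBar N ℓ (ι x) = a ℓ • ι x

/-- `WEmbedsIn` is monotone in the excluded set. -/
theorem WEmbedsIn.mono_h944 {W : WeierstrassCurve ℤ} {p N : ℕ} [NeZero N] {S S' : Finset ℕ}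
    {a : ℕ → ℤ} (h : S ⊆ S') (hemb : WEmbedsIn W p N S a) : WEmbedsIn W p N S' a := by
  obtain ⟨ι, hinj, hgal, hT⟩ := hemb
  exact ⟨ι, hinj, hgal, fun ℓ hℓ => hT ℓ (fun hS => hℓ (h hS))⟩

/-- (BLR_W)  Boston-Lenstra-Ribet in `W`-form: if `W[p]` is irreducible and `W` is residually
modular of level `N`, then `W[p]` embeds equivariantly in `J₀(N)[p]`, with `T_ℓ` acting through
`a_ℓ(W)` outside a finite set. -/
def EmbedWStatement : Prop :=
  ∀ (W : WeierstrassCurve ℤ), W.Δ ≠ 0 → ∀ (p : ℕ), p.Prime → p ≠ 2 →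
    W.ModRepIsIrreducible p → ∀ (N : ℕ) [NeZero N], W.IsResiduallyModularOfLevel p N →
    ∃ S : Finset ℕ, WEmbedsIn W p N S (fun ℓ => W.apOfModel ℓ)

/-- (WALL-p, good reduction form)  Mazur-Ribet at `p`, support form: `W` has good reduction at
the odd prime `p`, `W[p]` is irreducible and embedded Galois- and Hecke-equivariantly in
`J₀(pM')`, `p ∤ M'`; then its eigensystem occurs in `J₀(M')[p]` away from a finite set. -/
def GoodAtPOccursStatement : Prop :=
  ∀ (W : WeierstrassCurve ℤ), W.Δ ≠ 0 → ∀ (p : ℕ), p.Prime → p ≠ 2 →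
    W.IsGoodPrimeFor p → W.ModRepIsIrreducible p →
    ∀ (M' : ℕ) [NeZero M'] [NeZero (p * M')], ¬ p ∣ M' →
    ∀ (S : Finset ℕ) (a : ℕ → ℤ), WEmbedsIn W p (p * M') S a →
      ∃ S' : Finset ℕ, S ⊆ S' ∧ OccursIn M' p S' a

/-- (R3'_W)  Upgrade "congruent to `W` outside a finite set `S`" to residual modularity (all
good primes not dividing `M·p`).  [S42-type attachment + Chebotarev + trace formula for `W`.] -/
def AlmostAllToResModStatement : Prop :=
  ∀ (W : WeierstrassCurve ℤ), W.Δ ≠ 0 → ∀ (p : ℕ), p.Prime → p ≠ 2 →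
    W.ModRepIsIrreducible p → ∀ (M : ℕ), 0 < M →
    ∀ (g : CuspForm (CongruenceSubgroup.Gamma0 M) 2) (𝔪 : Ideal (integralClosure ℤ ℂ))
      (S : Finset ℕ), g.IsNormalizedEigenform → 𝔪.IsMaximal →
      (p : integralClosure ℤ ℂ) ∈ 𝔪 →
      (∀ ℓ : ℕ, ℓ.Prime → ℓ ∉ S →
        ∃ b : integralClosure ℤ ℂ, (b : ℂ) = qCoeff g ℓ ∧
          b - ((W.apOfModel ℓ : ℤ) : integralClosure ℤ ℂ) ∈ 𝔪) →
      W.IsResiduallyModularOfLevel p M

/-- Row 38 via S40: `S40 ⇐ BLR_W + WALL-p(good) + R3S + R3'_W`. -/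
theorem S40_of_walls (hE : EmbedWStatement) (hWall : GoodAtPOccursStatement)
    (hR3 : EigenformOfOccursAwayStatement) (hR3' : AlmostAllToResModStatement) :
    S40Statement := by
  intro W hΔ p hp hp2 hgood hirr M hMpos hpM hsq hmod
  obtain ⟨M', rfl⟩ := hpM
  have hM'pos : 0 < M' := by
    rcases Nat.eq_zero_or_pos M' with h0 | h0
    · subst h0; simp at hMpos
    · exact h0
  rw [Nat.mul_div_cancel_left M' hp.pos]
  have hpM' : ¬ p ∣ M' := by
    rintro ⟨k, rfl⟩
    exact hsq ⟨k, by ring⟩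
  haveI : NeZero M' := ⟨hM'pos.ne'⟩
  haveI : NeZero (p * M') := ⟨hMpos.ne'⟩
  obtain ⟨S, hemb⟩ := hE W hΔ p hp hp2 hirr (p * M') hmod
  obtain ⟨S', -, hocc⟩ := hWall W hΔ p hp hp2 hgood hirr M' hpM' S _ hemb
  obtain ⟨g, 𝔪', hg, hmax, hpm, hc⟩ := exists_eigenform_of_occursIn hR3 hp hocc
  exact hR3' W hΔ p hp hp2 hirr M' hM'pos g 𝔪' _ hg hmax hpm hc

/-- The frozen S40, verbatim, from the four inputs. -/
theorem S40_frozen_of_walls (hE : EmbedWStatement) (hWall : GoodAtPOccursStatement)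
    (hR3 : EigenformOfOccursAwayStatement) (hR3' : AlmostAllToResModStatement)
    (W : WeierstrassCurve ℤ) (hΔ : W.Δ ≠ 0)
    {p : ℕ} (hp : p.Prime) (hp2 : p ≠ 2)
    (hgood : W.IsGoodPrimeFor p)
    (hirr : W.ModRepIsIrreducible p)
    {M : ℕ} (hM : 0 < M) (hpM : p ∣ M) (hp2M : ¬ p ^ 2 ∣ M)
    (hmod : W.IsResiduallyModularOfLevel p M) :
    W.IsResiduallyModularOfLevel p (M / p) :=
  S40_of_walls hE hWall hR3 hR3' W hΔ hp hp2 hgood hirr hM hpM hp2M hmod

end Fermat.Agent.Ribet.H944
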